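/-
N4 / FrobDensity (helper28): roots of unity and the mod `p` cyclotomic character at Frobenius and
inertia elements, in the language of valuation subrings of `ℚ̄`; consumer shapes for the
S29 / S42 assembly.

* `apply_rootOfUnity_of_isFrobeniusAt` : a Frobenius element at `A | l` raises the roots of unity
  of order prime to `l` to the `l`-th power; `apply_rootOfUnity_of_mem_inertia` : inertia fixes them;
* `cycloCharMod p k : Γ →* kˣ` : the mod `p` cyclotomic character with values in a field `k` of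
  characteristic `p`; `cycloCharMod_frob`, `cycloCharMod_inertia`, `cycloCharMod_factors`;
* `frobeniusPowerDensity` : the Frobenius density theorem in the shape of
  `N4F.Res.FrobeniusPowerDensity` (arbitrary finite `L`);
* `exists_scalar_of_frobenius'` : `Dickson.exists_scalar_of_frobenius` for `ρ`, `χ` factoring
  through a finite level in the sense of the prelude.
-/
import Mathlib
import Fermat.Prelude.Def_GaloisRep_Residual
import Fermat.Prelude.Def_ExtCitation_KummerBridge
import Fermat.Agent.N4.FrobDensity.Dickson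

set_option autoImplicit false
set_option linter.deprecated false
set_option linter.unusedSectionVars false
set_option linter.style.haveILetI false

namespace Fermat.Agent.N4.FrobDensity

/-! ### Roots of unity modulo a valuation subring -/

section RootsOfUnity

variable {K M : Type*} [Field K] [Field M] [Algebra K M]

theorem mul_mem_nonunits (A : ValuationSubring M) {a x : M} (ha : a ∈ A)
    (hx : x ∈ A.nonunits) : a * x ∈ A.nonunits := by
  rw [ValuationSubring.mem_nonunits_iff] at hx ⊢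
  rw [map_mul]
  have h1 : A.valuation a ≤ 1 := (A.valuation_le_one_iff a).mpr ha
  calc A.valuation a * A.valuation x ≤ 1 * A.valuation x := by gcongr
    _ = A.valuation x := one_mul _
    _ < 1 := hx

theorem one_notMem_nonunits (A : ValuationSubring M) : (1 : M) ∉ A.nonunits := by
  rw [ValuationSubring.mem_nonunits_iff, map_one]
  exact lt_irrefl _

theorem valuation_eq_one_of_pow_eq_one (A : ValuationSubring M) {ζ : M} {n : ℕ} (hn : n ≠ 0)
    (hζ : ζ ^ n = 1) : A.valuation ζ = 1 := by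
  have h1 : A.valuation ζ ^ n = 1 := by rw [← map_pow, hζ, map_one]
  rcases lt_trichotomy (A.valuation ζ) 1 with h | h | h
  · exact absurd h1 (pow_lt_one₀ zero_le' h hn).ne
  · exact h
  · exact absurd h1 (one_lt_pow₀ h hn).ne'

theorem mem_of_pow_eq_one (A : ValuationSubring M) {ζ : M} {n : ℕ} (hn : n ≠ 0)
    (hζ : ζ ^ n = 1) : ζ ∈ A :=
  (A.valuation_le_one_iff ζ).mp (valuation_eq_one_of_pow_eq_one A hn hζ).le

/-- If `w ≠ 1` is a root of unity of order dividing `n`, `w - 1` is a non-unit of `A` and the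
residue characteristic `l` of `A` is prime to `n`, we get a contradiction. -/
theorem false_of_sub_one_mem_nonunits (A : ValuationSubring M) {l n : ℕ}
    (hl : (l : M) ∈ A.nonunits) (hln : Nat.Coprime l n) (hn : n ≠ 0) {w : M} (hw : w ^ n = 1)
    (hw1 : w ≠ 1) (hmem : w - 1 ∈ A.nonunits) : False := by
  -- `w` is a primitive `d`-th root of unity, `d = orderOf w > 1`, `d ∣ n`
  set d := orderOf w with hd
  have hdn : d ∣ n := orderOf_dvd_of_pow_eq_one hw
  have hd0 : d ≠ 0 := fun h => hn (Nat.eq_zero_of_zero_dvd (h ▸ hdn))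
  have hd1 : d ≠ 1 := fun h => hw1 (orderOf_eq_one_iff.mp h)
  have hprim : IsPrimitiveRoot w d := IsPrimitiveRoot.orderOf w
  obtain ⟨e, he⟩ : ∃ e, d = e + 1 := ⟨d - 1, by omega⟩
  have hprod := IsPrimitiveRoot.prod_one_sub_pow_eq_order (he ▸ hprim)
  -- the product is a multiple of `1 - w` by an element of `A`
  have he1 : 1 ≤ e := by omega
  have h0 : 0 ∈ Finset.range e := Finset.mem_range.mpr he1
  rw [← Finset.mul_prod_erase _ _ h0, zero_add, pow_one] at hprod
  have hcof : ∏ k ∈ (Finset.range e).erase 0, (1 - w ^ (k + 1)) ∈ A := by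
    refine Subring.prod_mem A.toSubring fun k _ => ?_
    exact A.toSubring.sub_mem A.toSubring.one_mem
      (A.toSubring.pow_mem (mem_of_pow_eq_one A hn hw) _)
  have h1w : 1 - w ∈ A.nonunits := by
    have : 1 - w = -(w - 1) := by ring
    rw [this]
    exact A.nonunits.neg_mem hmem
  have hdmem : ((e + 1 : ℕ) : M) ∈ A.nonunits := by
    have h2 := mul_mem_nonunits A hcof h1w
    rw [mul_comm] at h2
    rw [hprod] at h2
    exact_mod_cast h2
  -- Bezout
  have hcop : Nat.Coprime l (e + 1) := Nat.Coprime.coprime_dvd_right (he ▸ hdn) hln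
  have hbez : (l : ℤ) * Nat.gcdA l (e + 1) + ((e + 1 : ℕ) : ℤ) * Nat.gcdB l (e + 1) = 1 := by
    have := Nat.gcd_eq_gcd_ab l (e + 1)
    rw [hcop] at this
    exact_mod_cast this.symm
  have h3 : ((l : M) * ((Nat.gcdA l (e + 1) : ℤ) : M)
      + ((e + 1 : ℕ) : M) * ((Nat.gcdB l (e + 1) : ℤ) : M)) = 1 := by
    exact_mod_cast congrArg (Int.cast : ℤ → M) hbez
  have hint : ∀ z : ℤ, (z : M) ∈ A := fun z => intCast_mem A.toSubring z
  have h4 : (1 : M) ∈ A.nonunits := by
    rw [← h3]
    refine A.nonunits.add_mem ?_ ?_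
    · rw [mul_comm]
      exact mul_mem_nonunits A (hint _) hl
    · rw [mul_comm]
      exact mul_mem_nonunits A (hint _) hdmem
  exact one_notMem_nonunits A h4

/-- Two roots of unity of order prime to the residue characteristic which are congruent modulo
the maximal ideal of `A` are equal. -/
theorem eq_of_sub_mem_nonunits (A : ValuationSubring M) {l n : ℕ}
    (hl : (l : M) ∈ A.nonunits) (hln : Nat.Coprime l n) (hn : n ≠ 0) {x y : M} (hx : x ^ n = 1)
    (hy : y ^ n = 1) (hmem : x - y ∈ A.nonunits) : x = y := by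
  by_contra hne
  have hy0 : y ≠ 0 := by
    intro h
    rw [h, zero_pow hn] at hy
    exact zero_ne_one hy
  have hw : (x * y⁻¹) ^ n = 1 := by rw [mul_pow, inv_pow, hx, hy, inv_one, mul_one]
  have hw1 : x * y⁻¹ ≠ 1 := by
    intro h
    apply hne
    have := congrArg (· * y) h
    simpa [hy0] using this
  have hyinv : y⁻¹ ∈ A := by
    apply mem_of_pow_eq_one A hn
    rw [inv_pow, hy, inv_one]
  have hmem' : x * y⁻¹ - 1 ∈ A.nonunits := by
    have h1 : x * y⁻¹ - 1 = y⁻¹ * (x - y) := by
      field_simp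
    rw [h1]
    exact mul_mem_nonunits A hyinv hmem
  exact false_of_sub_one_mem_nonunits A hl hln hn hw hw1 hmem'

/-- An element of the inertia group acts trivially modulo the maximal ideal. -/
theorem sub_mem_nonunits_of_mem_inertia {A : ValuationSubring M} {σ : M ≃ₐ[K] M}
    (h : σ ∈ A.inertiaSubgroupIn K) {a : M} (ha : a ∈ A) : σ a - a ∈ A.nonunits := by
  obtain ⟨⟨σ', hσ'⟩, hker, rfl⟩ := Subgroup.mem_map.mp h
  have h1 : (⟨σ', hσ'⟩ : A.decompositionSubgroup K) • (IsLocalRing.residue A ⟨a, ha⟩)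
      = IsLocalRing.residue A ⟨a, ha⟩ := by
    have h2 := MonoidHom.mem_ker.mp hker
    have h3 := congrArg (fun f : RingAut (IsLocalRing.ResidueField A) =>
      f (IsLocalRing.residue A ⟨a, ha⟩)) h2
    exact h3
  rw [← IsLocalRing.ResidueField.residue_smul, ← sub_eq_zero, ← map_sub,
    IsLocalRing.residue_eq_zero_iff, ← ValuationSubring.coe_mem_nonunits_iff] at h1
  exact h1

/-- **Frobenius elements raise roots of unity of order prime to `l` to the `l`-th power.** -/
theorem apply_rootOfUnity_of_isFrobeniusAt {A : ValuationSubring M} {σ : M ≃ₐ[K] M} {l n : ℕ}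
    (hσ : A.IsFrobeniusAt σ l) (hl : (l : M) ∈ A.nonunits) (hln : Nat.Coprime l n) (hn : n ≠ 0)
    {ζ : M} (hζ : ζ ^ n = 1) : σ ζ = ζ ^ l := by
  have h1 := sub_pow_mem_nonunits_of_isFrobeniusAt hσ (mem_of_pow_eq_one A hn hζ)
  refine eq_of_sub_mem_nonunits A hl hln hn ?_ ?_ h1
  · rw [← map_pow, hζ, map_one]
  · rw [← pow_mul, mul_comm, pow_mul, hζ, one_pow]

/-- **Inertia at `q` fixes the roots of unity of order prime to `q`.** -/
theorem apply_rootOfUnity_of_mem_inertia {A : ValuationSubring M} {σ : M ≃ₐ[K] M} {q n : ℕ}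
    (hσ : σ ∈ A.inertiaSubgroupIn K) (hq : (q : M) ∈ A.nonunits) (hqn : Nat.Coprime q n)
    (hn : n ≠ 0) {ζ : M} (hζ : ζ ^ n = 1) : σ ζ = ζ := by
  have h1 := sub_mem_nonunits_of_mem_inertia hσ (mem_of_pow_eq_one A hn hζ)
  refine eq_of_sub_mem_nonunits A hq hqn hn ?_ hζ h1
  rw [← map_pow, hζ, map_one]

end RootsOfUnity

/-! ### The mod `p` cyclotomic character -/

section Cyclo

open ExtCitation

local notation "Qbar" => AlgebraicClosure ℚ
local notation "Γ" => (AlgebraicClosure ℚ ≃ₐ[ℚ] AlgebraicClosure ℚ)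

variable (p : ℕ) [hp : Fact p.Prime]

theorem pow_val_natCast_eq {t : Qbar} (ht : t ^ p = 1) (l : ℕ) :
    t ^ ((l : ZMod p)).val = t ^ l := by
  rw [ZMod.val_natCast]
  conv_rhs => rw [← Nat.mod_add_div l p, pow_add, pow_mul, ht, one_pow, mul_one]

/-- characterisation of the value of the mod `p` cyclotomic character. -/
theorem cycloChar_eq_of_forall (σ : Γ) (c : ZMod p)
    (h : ∀ t : Qbar, t ^ p = 1 → σ t = t ^ c.val) :
    ((cycloChar p σ : (ZMod p)ˣ) : ZMod p) = c := by
  haveI : NeZero p := ⟨hp.out.ne_zero⟩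
  have h1 := modularCyclotomicCharacter.unique Qbar (card_rootsOfUnity_eq_self p)
    (σ : Qbar ≃+* Qbar) (c := c) (by
      intro t ht
      have ht' : (t : Qbar) ^ p = 1 := by
        have := (mem_rootsOfUnity p t).mp ht
        rw [← Units.val_pow_eq_pow_val, this, Units.val_one]
      exact h t ht')
  exact h1.symm

/-- **The cyclotomic character at a Frobenius element at `l ≠ p` is `l`.** -/
theorem cycloChar_frob {A : ValuationSubring Qbar} {σ : Γ} {l : ℕ} (hl : l.Prime)
    (hlp : l ≠ p) (hlA : A.LiesOverPrime l) (hσ : A.IsFrobeniusAt σ l) :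
    ((cycloChar p σ : (ZMod p)ˣ) : ZMod p) = (l : ZMod p) := by
  refine cycloChar_eq_of_forall p σ (l : ZMod p) fun t ht => ?_
  rw [pow_val_natCast_eq p ht]
  exact apply_rootOfUnity_of_isFrobeniusAt hσ hlA
    ((Nat.coprime_primes hl hp.out).mpr hlp) hp.out.ne_zero ht

/-- **The cyclotomic character is trivial on inertia at `q ≠ p`.** -/
theorem cycloChar_inertia {A : ValuationSubring Qbar} {σ : Γ} {q : ℕ} (hq : q.Prime)
    (hqp : q ≠ p) (hqA : A.LiesOverPrime q) (hσ : σ ∈ A.inertiaSubgroupIn ℚ) :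
    cycloChar p σ = 1 := by
  haveI : Fact (1 < p) := ⟨hp.out.one_lt⟩
  apply Units.ext
  rw [Units.val_one]
  refine cycloChar_eq_of_forall p σ 1 fun t ht => ?_
  rw [ZMod.val_one, pow_one]
  exact apply_rootOfUnity_of_mem_inertia hσ hqA
    ((Nat.coprime_primes hq hp.out).mpr hqp) hp.out.ne_zero ht

/-- The cyclotomic character factors through `ℚ(ζ_p)`. -/
theorem cycloChar_factors : GaloisFactorsThroughFiniteLevel (cycloChar p) := by
  haveI : NeZero p := ⟨hp.out.ne_zero⟩
  haveI : Fact (1 < p) := ⟨hp.out.one_lt⟩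
  obtain ⟨ζ, hζ⟩ := HasEnoughRootsOfUnity.exists_primitiveRoot Qbar p
  have hint : IsIntegral ℚ ζ := (hζ.isIntegral hp.out.pos).tower_top
  refine ⟨IntermediateField.adjoin ℚ {ζ}, IntermediateField.adjoin.finiteDimensional hint,
    fun σ hσ => ?_⟩
  have hσζ : σ ζ = ζ := hσ ζ (IntermediateField.mem_adjoin_simple_self ℚ ζ)
  apply Units.ext
  rw [Units.val_one]
  refine cycloChar_eq_of_forall p σ 1 fun t ht => ?_
  rw [ZMod.val_one, pow_one]
  obtain ⟨i, -, rfl⟩ := hζ.eq_pow_of_pow_eq_one ht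
  rw [map_pow, hσζ]

variable (k : Type) [Field k] [CharP k p]

/-- The mod `p` cyclotomic character with values in a field of characteristic `p`. -/
noncomputable def cycloCharMod : Γ →* kˣ :=
  (Units.map ((ZMod.castHom (dvd_refl p) k : ZMod p →+* k) : ZMod p →* k)).comp (cycloChar p)

theorem coe_cycloCharMod (σ : Γ) :
    ((cycloCharMod p k σ : kˣ) : k) =
      ZMod.castHom (dvd_refl p) k ((cycloChar p σ : (ZMod p)ˣ) : ZMod p) := rfl

theorem cycloCharMod_frob {A : ValuationSubring Qbar} {σ : Γ} {l : ℕ} (hl : l.Prime)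
    (hlp : l ≠ p) (hlA : A.LiesOverPrime l) (hσ : A.IsFrobeniusAt σ l) :
    ((cycloCharMod p k σ : kˣ) : k) = (l : k) := by
  rw [coe_cycloCharMod, cycloChar_frob p hl hlp hlA hσ, map_natCast]

theorem cycloCharMod_inertia {A : ValuationSubring Qbar} {σ : Γ} {q : ℕ} (hq : q.Prime)
    (hqp : q ≠ p) (hqA : A.LiesOverPrime q) (hσ : σ ∈ A.inertiaSubgroupIn ℚ) :
    cycloCharMod p k σ = 1 := by
  rw [cycloCharMod, MonoidHom.comp_apply, cycloChar_inertia p hq hqp hqA hσ, map_one]

theorem cycloCharMod_factors : GaloisFactorsThroughFiniteLevel (cycloCharMod p k) := by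
  obtain ⟨L, hL, h⟩ := cycloChar_factors p
  exact ⟨L, hL, fun σ hσ => by rw [cycloCharMod, MonoidHom.comp_apply, h σ hσ, map_one]⟩

end Cyclo

/-! ### Consumer shapes -/

section Consumer

local notation "Qbar" => AlgebraicClosure ℚ
local notation "Γ" => (AlgebraicClosure ℚ ≃ₐ[ℚ] AlgebraicClosure ℚ)

local instance isAlgebraicQbar_FDC : Algebra.IsAlgebraic ℚ (AlgebraicClosure ℚ) :=
  AlgebraicClosure.isAlgebraic ℚ
local instance isAlgClosureQbar_FDC : IsAlgClosure ℚ (AlgebraicClosure ℚ) :=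
  ⟨inferInstance, inferInstance⟩
local instance normalQbar_FDC : Normal ℚ (AlgebraicClosure ℚ) :=
  IsAlgClosure.normal ℚ (AlgebraicClosure ℚ)

/-- Normality of the normal closure inside `Qbar`, for the `ℚ`-algebra structure that instance
search finds on intermediate fields of `Qbar` (all `ℚ`-algebra structures agree). -/
theorem normal_normalClosure_rat (L : IntermediateField ℚ Qbar) :
    Normal ℚ ↥(IntermediateField.normalClosure ℚ ↥L Qbar) := by
  convert (normalClosure.normal ℚ ↥L Qbar) using 1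
  exact Subsingleton.elim _ _

local instance normalClosureNormal_FDC (L : IntermediateField ℚ Qbar) :
    Normal ℚ ↥(IntermediateField.normalClosure ℚ ↥L Qbar) := normal_normalClosure_rat L

/-- If `restrictNormalHom L' γ = 1` then `γ` fixes `L'` pointwise. -/
theorem apply_eq_of_restrictNormalHom_eq (L' : IntermediateField ℚ Qbar) [Normal ℚ L']
    {γ γ' : Γ} (h : AlgEquiv.restrictNormalHom L' γ = AlgEquiv.restrictNormalHom L' γ')
    {y : Qbar} (hy : y ∈ L') : γ y = γ' y := by
  have h1 := AlgEquiv.restrictNormal_commutes γ L' ⟨y, hy⟩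
  have h2 := AlgEquiv.restrictNormal_commutes γ' L' ⟨y, hy⟩
  have h3 : γ.restrictNormal L' = γ'.restrictNormal L' := h
  rw [h3] at h1
  exact h1.symm.trans h2

/-- If `γ` fixes `L'` pointwise then `restrictNormalHom L' γ = 1`. -/
theorem restrictNormalHom_eq_one_of_fixes (L' : IntermediateField ℚ Qbar) [Normal ℚ L']
    {γ : Γ} (h : ∀ y ∈ L', γ y = y) : AlgEquiv.restrictNormalHom L' γ = 1 := by
  apply AlgEquiv.ext
  intro y
  apply Subtype.ext
  have h1 := AlgEquiv.restrictNormal_commutes γ L' y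
  exact h1.trans (h y y.2)

/-- **Frobenius density theorem, consumer shape** (`N4F.Res.FrobeniusPowerDensity` verbatim): every
`g` agrees on a given finite extension `L` (not necessarily normal) with a power of a Frobenius
element at a prime outside a given finite set. -/
theorem frobeniusPowerDensity :
    ∀ (L : IntermediateField ℚ Qbar), FiniteDimensional ℚ L → ∀ (g : Γ) (T : Finset ℕ),
      ∃ ℓ : ℕ, ℓ.Prime ∧ ℓ ∉ T ∧ ∃ A : ValuationSubring Qbar, A.LiesOverPrime ℓ ∧
        ∃ f : Γ, A.IsFrobeniusAt f ℓ ∧ ∃ j : ℕ, ∀ y ∈ L, g y = (f ^ j) y := by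
  intro L hL g T
  haveI := hL
  have hle : L ≤ IntermediateField.normalClosure ℚ L Qbar := IntermediateField.le_normalClosure L
  obtain ⟨ℓ, hℓ, hℓT, A, hA, f, hf, j, hj⟩ :=
    exists_isFrobeniusAt_pow_eq (IntermediateField.normalClosure ℚ L Qbar) g T
  exact ⟨ℓ, hℓ, hℓT, A, hA, f, hf, j, fun y hy =>
    apply_eq_of_restrictNormalHom_eq (IntermediateField.normalClosure ℚ L Qbar) hj (hle hy)⟩

/-- If `restrictNormalHom L' γ = 1` then `γ` fixes `L'` pointwise. -/
theorem apply_eq_of_restrictNormalHom_eq_one (L' : IntermediateField ℚ Qbar) [Normal ℚ L']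
    {γ : Γ} (h : AlgEquiv.restrictNormalHom L' γ = 1) {y : Qbar} (hy : y ∈ L') : γ y = y := by
  have h3 : AlgEquiv.restrictNormalHom L' γ = AlgEquiv.restrictNormalHom L' (1 : Γ) := by
    rw [h, map_one]
  exact apply_eq_of_restrictNormalHom_eq L' h3 hy

/-- A common finite normal level for two maps factoring through finite levels. -/
theorem exists_normal_level {M₁ M₂ : Type} [MulOneClass M₁] [MulOneClass M₂] (ρ : Γ →* M₁)
    (χ : Γ →* M₂) (hρ : GaloisFactorsThroughFiniteLevel ρ)
    (hχ : GaloisFactorsThroughFiniteLevel χ) :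
    ∃ (L : IntermediateField ℚ Qbar) (_ : FiniteDimensional ℚ L) (_ : Normal ℚ L),
      (∀ γ : Γ, AlgEquiv.restrictNormalHom L γ = 1 → ρ γ = 1) ∧
      (∀ γ : Γ, AlgEquiv.restrictNormalHom L γ = 1 → χ γ = 1) := by
  obtain ⟨L₁, hL₁, h₁⟩ := hρ
  obtain ⟨L₂, hL₂, h₂⟩ := hχ
  haveI := hL₁
  haveI := hL₂
  have hle : L₁ ⊔ L₂ ≤ IntermediateField.normalClosure ℚ (L₁ ⊔ L₂ : IntermediateField ℚ Qbar) Qbar :=
    IntermediateField.le_normalClosure (L₁ ⊔ L₂)
  refine ⟨IntermediateField.normalClosure ℚ (L₁ ⊔ L₂ : IntermediateField ℚ Qbar) Qbar,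
    inferInstance, inferInstance, fun γ hγ => ?_, fun γ hγ => ?_⟩
  · exact h₁ γ fun x hx =>
      apply_eq_of_restrictNormalHom_eq_one _ hγ (hle (le_sup_left (a := L₁) hx))
  · exact h₂ γ fun x hx =>
      apply_eq_of_restrictNormalHom_eq_one _ hγ (hle (le_sup_right (b := L₂) hx))

/-- **From Frobenius elements to all elements**, for `ρ` and `χ` factoring through a finite level
in the sense of the prelude: if every Frobenius element `φ` at every prime `l ∉ T` satisfies
`ρ(φ)² - a ρ(φ) + χ(φ) = 0` for some scalar `a`, then `ρ(g) + χ(g) ρ(g⁻¹)` is a scalar for every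
`g` — the operator identity (`OpIdentity`) consumed by the involution trick. -/
theorem exists_scalar_of_frobenius' {k : Type} [Field k] {U : Type} [AddCommGroup U]
    [Module k U] (ρ : Γ →* Module.End k U) (χ : Γ →* kˣ)
    (hρ : GaloisFactorsThroughFiniteLevel ρ) (hχ : GaloisFactorsThroughFiniteLevel χ)
    (T : Finset ℕ)
    (hfrob : ∀ l : ℕ, l.Prime → l ∉ T → ∀ A : ValuationSubring Qbar, A.LiesOverPrime l →
      ∀ φ : Γ, A.IsFrobeniusAt φ l →
        ∃ a : k, ρ φ * ρ φ - a • ρ φ + ((χ φ : kˣ) : k) • (1 : Module.End k U) = 0)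
    (g : Γ) :
    ∃ s : k, ρ g + ((χ g : kˣ) : k) • ρ g⁻¹ = s • (1 : Module.End k U) := by
  obtain ⟨L, hfd, hnorm, h1, h2⟩ := exists_normal_level ρ χ hρ hχ
  exact exists_scalar_of_frobenius L ρ χ h1 h2 T hfrob g

end Consumer

end Fermat.Agent.N4.FrobDensity
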