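/-
N4 / FrobDensity (helper28): the operator identity `ρ(g) + χ(g) ρ(g)⁻¹ ∈ scalars` for ALL `g`, from
the Eichler–Shimura relation at Frobenius elements, for adically continuous representations on
finite free modules over a Noetherian local ring (closedness of the identity + Frobenius density
at every finite level).  This is node (d) of the `p`-adic packaging (S30).

* `smallEnd J` : the endomorphisms with image in `J • V` (a two-sided ideal of `End V`);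
* `exists_scalar_mod_of_frobenius` : the identity modulo `J`, for `ρ`, `χ` trivial modulo `J` on
  `Gal(ℚ̄/L)`;
* `exists_scalar_of_frobenius_adic` : the identity itself (Krull intersection theorem);
* `exists_scalar_of_frobenius_adicContinuous` : the same for the prelude's
  `GaloisActionIsAdicContinuous`.
-/
import Mathlib
import Fermat.Prelude.Def_GaloisRep_Adic
import Fermat.Agent.N4.FrobDensity.CycloFrob

set_option autoImplicit false
set_option linter.deprecated false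
set_option linter.unusedSectionVars false
set_option linter.style.haveILetI false

namespace Fermat.Agent.N4.FrobDensity

/-! ### Endomorphisms which are small modulo an ideal -/

section SmallEnd

variable {𝒪 : Type*} [CommRing 𝒪] {V : Type*} [AddCommGroup V] [Module 𝒪 V]

/-- The endomorphisms of `V` with image in `J • V`. -/
def smallEnd (J : Ideal 𝒪) : Submodule 𝒪 (Module.End 𝒪 V) where
  carrier := {f | ∀ v, f v ∈ (J • ⊤ : Submodule 𝒪 V)}
  add_mem' := fun {f g} hf hg v => by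
    rw [LinearMap.add_apply]
    exact Submodule.add_mem _ (hf v) (hg v)
  zero_mem' := fun v => by
    rw [LinearMap.zero_apply]
    exact Submodule.zero_mem _
  smul_mem' := fun c f hf v => by
    rw [LinearMap.smul_apply]
    exact Submodule.smul_mem _ c (hf v)

theorem mem_smallEnd {J : Ideal 𝒪} {f : Module.End 𝒪 V} :
    f ∈ smallEnd J ↔ ∀ v, f v ∈ (J • ⊤ : Submodule 𝒪 V) := Iff.rfl

theorem apply_mem_smul_top (J : Ideal 𝒪) (g : Module.End 𝒪 V) {w : V}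
    (hw : w ∈ (J • ⊤ : Submodule 𝒪 V)) : g w ∈ (J • ⊤ : Submodule 𝒪 V) := by
  have h1 : g w ∈ (J • ⊤ : Submodule 𝒪 V).map g := Submodule.mem_map_of_mem hw
  rw [Submodule.map_smul''] at h1
  exact Submodule.smul_mono (le_refl J) le_top h1

theorem mul_mem_smallEnd_left {J : Ideal 𝒪} (g : Module.End 𝒪 V) {f : Module.End 𝒪 V}
    (hf : f ∈ smallEnd J) : g * f ∈ smallEnd J := fun v => by
  rw [Module.End.mul_apply]
  exact apply_mem_smul_top J g (hf v)

theorem mul_mem_smallEnd_right {J : Ideal 𝒪} (g : Module.End 𝒪 V) {f : Module.End 𝒪 V}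
    (hf : f ∈ smallEnd J) : f * g ∈ smallEnd J := fun v => by
  rw [Module.End.mul_apply]
  exact hf (g v)

theorem smul_mem_smallEnd_of_mem {J : Ideal 𝒪} {c : 𝒪} (hc : c ∈ J) (f : Module.End 𝒪 V) :
    c • f ∈ smallEnd J := fun v => by
  rw [LinearMap.smul_apply]
  exact Submodule.smul_mem_smul hc Submodule.mem_top

end SmallEnd

/-! ### The identity modulo an ideal -/

section ModStep

local notation "Qbar" => AlgebraicClosure ℚ
local notation "Γ" => (AlgebraicClosure ℚ ≃ₐ[ℚ] AlgebraicClosure ℚ)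

local instance isAlgebraicQbar_FDE : Algebra.IsAlgebraic ℚ (AlgebraicClosure ℚ) :=
  AlgebraicClosure.isAlgebraic ℚ
local instance isAlgClosureQbar_FDE : IsAlgClosure ℚ (AlgebraicClosure ℚ) :=
  ⟨inferInstance, inferInstance⟩
local instance normalQbar_FDE : Normal ℚ (AlgebraicClosure ℚ) :=
  IsAlgClosure.normal ℚ (AlgebraicClosure ℚ)

variable {𝒪 : Type*} [CommRing 𝒪] {V : Type*} [AddCommGroup V] [Module 𝒪 V]

/-- **The operator identity modulo `J`.**  If `ρ` and `χ` are trivial modulo `J` on `Gal(ℚ̄/L)`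
(`L/ℚ` finite Galois) and all Frobenius elements `φ` outside `T` satisfy
`ρ(φ)² - a ρ(φ) + χ(φ) = 0`, then `ρ(g) + χ(g) ρ(g⁻¹)` is a scalar modulo `J` for every `g`. -/
theorem exists_scalar_mod_of_frobenius (L : IntermediateField ℚ Qbar) [FiniteDimensional ℚ L]
    [Normal ℚ L] (J : Ideal 𝒪) (ρ : Γ →* Module.End 𝒪 V) (χ : Γ →* 𝒪ˣ)
    (hρ : ∀ γ : Γ, AlgEquiv.restrictNormalHom L γ = 1 → ρ γ - 1 ∈ smallEnd J)
    (hχ : ∀ γ : Γ, AlgEquiv.restrictNormalHom L γ = 1 → ((χ γ : 𝒪ˣ) : 𝒪) - 1 ∈ J)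
    (T : Finset ℕ)
    (hfrob : ∀ l : ℕ, l.Prime → l ∉ T → ∀ A : ValuationSubring Qbar, A.LiesOverPrime l →
      ∀ φ : Γ, A.IsFrobeniusAt φ l →
        ∃ a : 𝒪, ρ φ * ρ φ - a • ρ φ + ((χ φ : 𝒪ˣ) : 𝒪) • (1 : Module.End 𝒪 V) = 0)
    (g : Γ) :
    ∃ s : 𝒪, ρ g + ((χ g : 𝒪ˣ) : 𝒪) • ρ g⁻¹ - s • (1 : Module.End 𝒪 V) ∈ smallEnd J := by
  obtain ⟨l, hl, hlT, A, hlA, φ, hφ, m, hm⟩ := exists_isFrobeniusAt_pow_eq L g T
  obtain ⟨a, ha⟩ := hfrob l hl hlT A hlA φ hφ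
  -- `g = φ ^ m * τ` with `τ` trivial on `L`
  set ψ : Γ := φ ^ m with hψ
  set τ : Γ := ψ⁻¹ * g with hτ
  have hker : AlgEquiv.restrictNormalHom L τ = 1 := by
    rw [hτ, map_mul, map_inv, hm, inv_mul_cancel]
  have hker' : AlgEquiv.restrictNormalHom L τ⁻¹ = 1 := by
    rw [map_inv, hker, inv_one]
  have hg : g = ψ * τ := by rw [hτ, mul_inv_cancel_left]
  have hg' : g⁻¹ = τ⁻¹ * ψ⁻¹ := by rw [hg, mul_inv_rev]
  -- the exact identity for `ψ = φ ^ m`
  have hF1 : ρ φ * ρ φ⁻¹ = 1 := by rw [← map_mul, mul_inv_cancel, map_one]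
  have hF2 : ρ φ⁻¹ * ρ φ = 1 := by rw [← map_mul, inv_mul_cancel, map_one]
  have hexact : ρ ψ + ((χ ψ : 𝒪ˣ) : 𝒪) • ρ ψ⁻¹
      = dicksonSeq a ((χ φ : 𝒪ˣ) : 𝒪) m • (1 : Module.End 𝒪 V) := by
    rw [hψ, map_pow, map_pow, Units.val_pow_eq_pow_val, ← inv_pow, map_pow]
    exact pow_add_smul_inv_pow a ((χ φ : 𝒪ˣ) : 𝒪) (ρ φ) (ρ φ⁻¹) hF1 hF2 ha m
  refine ⟨dicksonSeq a ((χ φ : 𝒪ˣ) : 𝒪) m, ?_⟩
  rw [← hexact]
  -- the three error terms
  have e1 : ρ g - ρ ψ ∈ smallEnd J := by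
    have h1 : ρ g - ρ ψ = ρ ψ * (ρ τ - 1) := by rw [hg, map_mul, mul_sub, mul_one]
    rw [h1]
    exact mul_mem_smallEnd_left _ (hρ τ hker)
  have e2 : ρ g⁻¹ - ρ ψ⁻¹ ∈ smallEnd J := by
    have h1 : ρ g⁻¹ - ρ ψ⁻¹ = (ρ τ⁻¹ - 1) * ρ ψ⁻¹ := by rw [hg', map_mul, sub_mul, one_mul]
    rw [h1]
    exact mul_mem_smallEnd_right _ (hρ τ⁻¹ hker')
  have e3 : (((χ τ : 𝒪ˣ) : 𝒪) - 1) • ρ g⁻¹ ∈ smallEnd J :=
    smul_mem_smallEnd_of_mem (hχ τ hker) _
  have hχg : ((χ g : 𝒪ˣ) : 𝒪) = ((χ ψ : 𝒪ˣ) : 𝒪) * ((χ τ : 𝒪ˣ) : 𝒪) := by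
    rw [hg, map_mul, Units.val_mul]
  have hsum : ρ g + ((χ g : 𝒪ˣ) : 𝒪) • ρ g⁻¹ - (ρ ψ + ((χ ψ : 𝒪ˣ) : 𝒪) • ρ ψ⁻¹)
      = (ρ g - ρ ψ) + ((χ ψ : 𝒪ˣ) : 𝒪) • ((((χ τ : 𝒪ˣ) : 𝒪) - 1) • ρ g⁻¹ + (ρ g⁻¹ - ρ ψ⁻¹)) := by
    rw [hχg, smul_add, smul_sub, sub_smul, one_smul, smul_sub, mul_smul]
    abel
  rw [hsum]
  exact Submodule.add_mem _ e1 (Submodule.smul_mem _ _ (Submodule.add_mem _ e3 e2))

/-- A common finite normal level for two properties of Galois elements which hold on open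
subgroups. -/
theorem exists_normal_level_of_pred (P₁ P₂ : Γ → Prop)
    (h₁ : ∃ L : IntermediateField ℚ Qbar, FiniteDimensional ℚ L ∧
      ∀ σ : Γ, (∀ x ∈ L, σ x = x) → P₁ σ)
    (h₂ : ∃ L : IntermediateField ℚ Qbar, FiniteDimensional ℚ L ∧
      ∀ σ : Γ, (∀ x ∈ L, σ x = x) → P₂ σ) :
    ∃ (L : IntermediateField ℚ Qbar) (_ : FiniteDimensional ℚ L) (_ : Normal ℚ L),
      (∀ γ : Γ, AlgEquiv.restrictNormalHom L γ = 1 → P₁ γ) ∧
      (∀ γ : Γ, AlgEquiv.restrictNormalHom L γ = 1 → P₂ γ) := by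
  obtain ⟨L₁, hL₁, h₁⟩ := h₁
  obtain ⟨L₂, hL₂, h₂⟩ := h₂
  haveI := hL₁
  haveI := hL₂
  haveI := normal_normalClosure_rat (L₁ ⊔ L₂)
  have hle : L₁ ⊔ L₂ ≤ IntermediateField.normalClosure ℚ (L₁ ⊔ L₂ : IntermediateField ℚ Qbar) Qbar :=
    IntermediateField.le_normalClosure (L₁ ⊔ L₂)
  refine ⟨IntermediateField.normalClosure ℚ (L₁ ⊔ L₂ : IntermediateField ℚ Qbar) Qbar,
    inferInstance, inferInstance, fun γ hγ => ?_, fun γ hγ => ?_⟩
  · exact h₁ γ fun x hx =>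
      apply_eq_of_restrictNormalHom_eq_one _ hγ (hle (le_sup_left (a := L₁) hx))
  · exact h₂ γ fun x hx =>
      apply_eq_of_restrictNormalHom_eq_one _ hγ (hle (le_sup_right (b := L₂) hx))

end ModStep

/-! ### The identity itself -/

section Adic

local notation "Qbar" => AlgebraicClosure ℚ
local notation "Γ" => (AlgebraicClosure ℚ ≃ₐ[ℚ] AlgebraicClosure ℚ)

variable {𝒪 : Type*} [CommRing 𝒪] {V : Type*} [AddCommGroup V] [Module 𝒪 V]

/-- Coordinates of an element of `J • V` lie in `J`. -/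
theorem repr_mem_of_mem_smul_top {ι : Type*} (b : Module.Basis ι 𝒪 V) (J : Ideal 𝒪) {w : V}
    (hw : w ∈ (J • ⊤ : Submodule 𝒪 V)) (i : ι) : b.repr w i ∈ J := by
  refine Submodule.smul_induction_on (p := fun w => b.repr w i ∈ J) hw (fun r hr v _ => ?_)
    (fun x y hx hy => ?_)
  · rw [map_smul, Finsupp.smul_apply, smul_eq_mul]
    exact Ideal.mul_mem_right _ _ hr
  · rw [map_add, Finsupp.add_apply]
    exact Ideal.add_mem _ hx hy

/-- An endomorphism of a finite free module over a Noetherian local ring which is a scalar modulo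
every power of the maximal ideal is a scalar. -/
theorem exists_eq_smul_one_of_forall_mod [IsLocalRing 𝒪] [IsNoetherianRing 𝒪] [Module.Free 𝒪 V]
    (X : Module.End 𝒪 V)
    (h : ∀ n : ℕ, ∃ s : 𝒪, X - s • (1 : Module.End 𝒪 V) ∈
      smallEnd (IsLocalRing.maximalIdeal 𝒪 ^ n)) :
    ∃ s : 𝒪, X = s • (1 : Module.End 𝒪 V) := by
  classical
  set b := Module.Free.chooseBasis 𝒪 V with hb
  have hkrull : ∀ c : 𝒪, (∀ n : ℕ, c ∈ IsLocalRing.maximalIdeal 𝒪 ^ n) → c = 0 := by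
    intro c hc
    have h1 : c ∈ (⨅ n : ℕ, IsLocalRing.maximalIdeal 𝒪 ^ n : Ideal 𝒪) := by
      rw [Ideal.mem_iInf]
      exact hc
    rw [Ideal.iInf_pow_eq_bot_of_isLocalRing _ (IsLocalRing.maximalIdeal.isMaximal 𝒪).ne_top] at h1
    exact h1
  choose s hs using h
  -- the coordinates of `X (b j) - s n • b j` lie in `𝔪 ^ n`
  have hcoord : ∀ (n : ℕ) (i j : Module.Free.ChooseBasisIndex 𝒪 V),
      b.repr (X (b j)) i - s n * (if i = j then 1 else 0) ∈ IsLocalRing.maximalIdeal 𝒪 ^ n := by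
    intro n i j
    have h1 := repr_mem_of_mem_smul_top b _ (hs n (b j)) i
    rw [LinearMap.sub_apply, LinearMap.smul_apply, Module.End.one_apply, map_sub, map_smul,
      Finsupp.sub_apply, Finsupp.smul_apply, Module.Basis.repr_self, smul_eq_mul,
      Finsupp.single_apply] at h1
    have h2 : (if j = i then (1 : 𝒪) else 0) = if i = j then 1 else 0 := by
      by_cases hij : i = j
      · rw [if_pos hij, if_pos hij.symm]
      · rw [if_neg hij, if_neg (fun h => hij h.symm)]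
    rw [h2] at h1
    exact h1
  rcases isEmpty_or_nonempty (Module.Free.ChooseBasisIndex 𝒪 V) with hempty | ⟨⟨i₀⟩⟩
  · refine ⟨0, ?_⟩
    apply b.ext
    intro j
    exact (hempty.false j).elim
  · refine ⟨b.repr (X (b i₀)) i₀, ?_⟩
    set t := b.repr (X (b i₀)) i₀ with ht
    have hts : ∀ n : ℕ, t - s n ∈ IsLocalRing.maximalIdeal 𝒪 ^ n := by
      intro n
      have h1 := hcoord n i₀ i₀
      rw [if_pos rfl, mul_one] at h1
      exact h1
    apply b.ext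
    intro j
    apply b.repr.injective
    apply Finsupp.ext
    intro i
    rw [LinearMap.smul_apply, Module.End.one_apply, map_smul, Finsupp.smul_apply,
      Module.Basis.repr_self, smul_eq_mul, Finsupp.single_apply]
    have h2 : (if j = i then (1 : 𝒪) else 0) = if i = j then 1 else 0 := by
      by_cases hij : i = j
      · rw [if_pos hij, if_pos hij.symm]
      · rw [if_neg hij, if_neg (fun h => hij h.symm)]
    rw [h2, ← sub_eq_zero]
    refine hkrull _ fun n => ?_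
    have h3 : b.repr (X (b j)) i - t * (if i = j then 1 else 0)
        = (b.repr (X (b j)) i - s n * (if i = j then 1 else 0))
          - (t - s n) * (if i = j then 1 else 0) := by ring
    rw [h3]
    exact Ideal.sub_mem _ (hcoord n i j) (Ideal.mul_mem_right _ _ (hts n))

/-- **From Frobenius elements to all elements, adic form.**  Let `ρ` be a representation of
`Gal(ℚ̄/ℚ)` on a finite free module `V` over a Noetherian local ring `𝒪`, and `χ` a character with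
values in `𝒪ˣ`, both adically continuous.  If every Frobenius element `φ` at every prime `l ∉ T`
satisfies `ρ(φ)² - a ρ(φ) + χ(φ) = 0` for some scalar `a`, then `ρ(g) + χ(g) ρ(g⁻¹)` is a scalar
for every `g`. -/
theorem exists_scalar_of_frobenius_adic [IsLocalRing 𝒪] [IsNoetherianRing 𝒪] [Module.Free 𝒪 V]
    (ρ : Γ →* Module.End 𝒪 V)
    (hρ : ∀ n : ℕ, ∃ L : IntermediateField ℚ Qbar, FiniteDimensional ℚ L ∧
      ∀ σ : Γ, (∀ x ∈ L, σ x = x) →
        ∀ v : V, ρ σ v - v ∈ (IsLocalRing.maximalIdeal 𝒪 ^ n) • (⊤ : Submodule 𝒪 V))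
    (χ : Γ →* 𝒪ˣ)
    (hχ : ∀ n : ℕ, ∃ L : IntermediateField ℚ Qbar, FiniteDimensional ℚ L ∧
      ∀ σ : Γ, (∀ x ∈ L, σ x = x) →
        ((χ σ : 𝒪ˣ) : 𝒪) - 1 ∈ IsLocalRing.maximalIdeal 𝒪 ^ n)
    (T : Finset ℕ)
    (hfrob : ∀ l : ℕ, l.Prime → l ∉ T → ∀ A : ValuationSubring Qbar, A.LiesOverPrime l →
      ∀ φ : Γ, A.IsFrobeniusAt φ l →
        ∃ a : 𝒪, ρ φ * ρ φ - a • ρ φ + ((χ φ : 𝒪ˣ) : 𝒪) • (1 : Module.End 𝒪 V) = 0)
    (g : Γ) :
    ∃ s : 𝒪, ρ g + ((χ g : 𝒪ˣ) : 𝒪) • ρ g⁻¹ = s • (1 : Module.End 𝒪 V) := by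
  refine exists_eq_smul_one_of_forall_mod _ fun n => ?_
  obtain ⟨L, hfd, hnorm, h1, h2⟩ := exists_normal_level_of_pred
    (fun σ => ρ σ - 1 ∈ smallEnd (V := V) (IsLocalRing.maximalIdeal 𝒪 ^ n))
    (fun σ => ((χ σ : 𝒪ˣ) : 𝒪) - 1 ∈ IsLocalRing.maximalIdeal 𝒪 ^ n)
    (by
      obtain ⟨L, hL, h⟩ := hρ n
      exact ⟨L, hL, fun σ hσ v => by
        rw [LinearMap.sub_apply, Module.End.one_apply]
        exact h σ hσ v⟩)
    (hχ n)
  exact exists_scalar_mod_of_frobenius L _ ρ χ h1 h2 T hfrob g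

/-- The same for the prelude's `GaloisActionIsAdicContinuous`. -/
theorem exists_scalar_of_frobenius_adicContinuous {A : Type} [CommRing A] [IsLocalRing A]
    [IsNoetherianRing A] {W : Type} [AddCommGroup W] [Module A W] [Module.Free A W]
    (ρ : Γ →* Module.End A W) (hρ : GaloisActionIsAdicContinuous A ρ)
    (χ : Γ →* Aˣ)
    (hχ : ∀ n : ℕ, ∃ L : IntermediateField ℚ Qbar, FiniteDimensional ℚ L ∧
      ∀ σ : Γ, (∀ x ∈ L, σ x = x) →
        ((χ σ : Aˣ) : A) - 1 ∈ IsLocalRing.maximalIdeal A ^ n)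
    (T : Finset ℕ)
    (hfrob : ∀ l : ℕ, l.Prime → l ∉ T → ∀ B : ValuationSubring Qbar, B.LiesOverPrime l →
      ∀ φ : Γ, B.IsFrobeniusAt φ l →
        ∃ a : A, ρ φ * ρ φ - a • ρ φ + ((χ φ : Aˣ) : A) • (1 : Module.End A W) = 0)
    (g : Γ) :
    ∃ s : A, ρ g + ((χ g : Aˣ) : A) • ρ g⁻¹ = s • (1 : Module.End A W) :=
  exists_scalar_of_frobenius_adic ρ hρ χ hχ T hfrob g

end Adic

end Fermat.Agent.N4.FrobDensity
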