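/-
N4 / FrobDensity (helper28): the `p`-adic cyclotomic character at Frobenius and inertia elements,
in the language of valuation subrings of `ℚ̄`, for the `p`-adic packaging (S30).

* `cycloCharAdic p : Γ →* ℤ_[p]ˣ` : Mathlib's `cyclotomicCharacter (AlgebraicClosure ℚ) p` on
  `ℚ`-algebra automorphisms; `cycloCharAdic_frob` (value `l` at Frobenius elements at `l ≠ p`),
  `cycloCharAdic_inertia` (trivial on inertia at `q ≠ p`), `cycloCharAdic_continuous`
  (congruent to `1` modulo `p ^ n` on an open subgroup);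
* `padicIntToComplete` : the ring homomorphism `ℤ_[p] →+* 𝒪` for a local ring `𝒪` which is
  complete for its maximal ideal `𝔪 ∋ p`;
* `cycloCharIn f : Γ →* 𝒪ˣ` : the push-forward along a ring homomorphism `f : ℤ_[p] →+* 𝒪`, with
  the same three properties.
-/
import Mathlib
import Fermat.Prelude.Def_GaloisRep_Adic
import Fermat.Agent.N4.FrobDensity.CycloFrob

set_option autoImplicit false
set_option linter.deprecated false
set_option linter.unusedSectionVars false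
set_option linter.style.haveILetI false

namespace Fermat.Agent.N4.FrobDensity

/-! ### The `p`-adic cyclotomic character -/

section CycloAdic

local notation "Qbar" => AlgebraicClosure ℚ
local notation "Γ" => (AlgebraicClosure ℚ ≃ₐ[ℚ] AlgebraicClosure ℚ)

variable (p : ℕ) [hp : Fact p.Prime]

theorem neZero_prime_rat : NeZero ((p : ℕ) : ℚ) :=
  ⟨by exact_mod_cast hp.out.ne_zero⟩

theorem hasEnoughRootsOfUnity_Qbar (i : ℕ) : HasEnoughRootsOfUnity Qbar (p ^ i) :=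
  haveI := neZero_prime_rat p
  AlgebraicClosure.hasEnoughRootsOfUnity_pow ℚ p i

local instance hasEnoughRootsOfUnityQbar_FDA (i : ℕ) : HasEnoughRootsOfUnity Qbar (p ^ i) :=
  hasEnoughRootsOfUnity_Qbar p i

/-- The `p`-adic cyclotomic character of `Gal(ℚ̄/ℚ)`. -/
noncomputable def cycloCharAdic : Γ →* ℤ_[p]ˣ :=
  MonoidHom.mk' (fun σ => cyclotomicCharacter Qbar p (σ : Qbar ≃+* Qbar))
    (fun a b => by rw [← map_mul]; congr 1)

theorem cycloCharAdic_apply (σ : Γ) :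
    cycloCharAdic p σ = cyclotomicCharacter Qbar p (σ : Qbar ≃+* Qbar) := rfl

/-- The defining property: `σ t = t ^ (χ σ mod p ^ n)` for every `p ^ n`-th root of unity `t`. -/
theorem cycloCharAdic_spec (σ : Γ) {n : ℕ} {t : Qbar} (ht : t ^ p ^ n = 1) :
    σ t = t ^ (PadicInt.toZModPow n ((cycloCharAdic p σ : ℤ_[p]ˣ) : ℤ_[p])).val :=
  cyclotomicCharacter.spec p (σ : Qbar ≃+* Qbar) t ht

theorem pow_val_natCast_eq' {m : ℕ} {t : Qbar} (ht : t ^ m = 1) (l : ℕ) :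
    t ^ ((l : ZMod m)).val = t ^ l := by
  rw [ZMod.val_natCast]
  conv_rhs => rw [← Nat.mod_add_div l m, pow_add, pow_mul, ht, one_pow, mul_one]

/-- characterisation of the value of the `p`-adic cyclotomic character modulo `p ^ n`. -/
theorem toZModPow_cycloCharAdic_eq_of_forall (σ : Γ) (n : ℕ) (c : ZMod (p ^ n))
    (h : ∀ t : Qbar, t ^ p ^ n = 1 → σ t = t ^ c.val) :
    PadicInt.toZModPow n ((cycloCharAdic p σ : ℤ_[p]ˣ) : ℤ_[p]) = c := by
  haveI : NeZero (p ^ n) := ⟨pow_ne_zero _ hp.out.ne_zero⟩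
  rw [cycloCharAdic_apply, cyclotomicCharacter.toZModPow]
  have h1 := modularCyclotomicCharacter.unique Qbar
    (HasEnoughRootsOfUnity.natCard_rootsOfUnity Qbar (p ^ n)) (σ : Qbar ≃+* Qbar) (c := c) (by
      intro t ht
      have ht' : (t : Qbar) ^ p ^ n = 1 := by
        have := (mem_rootsOfUnity (p ^ n) t).mp ht
        rw [← Units.val_pow_eq_pow_val, this, Units.val_one]
      exact h t ht')
  exact h1.symm

/-- characterisation of the value of the `p`-adic cyclotomic character. -/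
theorem cycloCharAdic_eq_of_forall (σ : Γ) (c : ℤ_[p])
    (h : ∀ (n : ℕ) (t : Qbar), t ^ p ^ n = 1 → σ t = t ^ (PadicInt.toZModPow n c).val) :
    ((cycloCharAdic p σ : ℤ_[p]ˣ) : ℤ_[p]) = c :=
  PadicInt.ext_of_toZModPow.mp fun n =>
    toZModPow_cycloCharAdic_eq_of_forall p σ n _ (h n)

/-- **The `p`-adic cyclotomic character at a Frobenius element at `l ≠ p` is `l`.** -/
theorem cycloCharAdic_frob {A : ValuationSubring Qbar} {σ : Γ} {l : ℕ} (hl : l.Prime)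
    (hlp : l ≠ p) (hlA : A.LiesOverPrime l) (hσ : A.IsFrobeniusAt σ l) :
    ((cycloCharAdic p σ : ℤ_[p]ˣ) : ℤ_[p]) = (l : ℤ_[p]) := by
  refine cycloCharAdic_eq_of_forall p σ (l : ℤ_[p]) fun n t ht => ?_
  rw [map_natCast, pow_val_natCast_eq' ht]
  exact apply_rootOfUnity_of_isFrobeniusAt hσ hlA
    (Nat.Coprime.pow_right n ((Nat.coprime_primes hl hp.out).mpr hlp))
    (pow_ne_zero _ hp.out.ne_zero) ht

/-- **The `p`-adic cyclotomic character is trivial on inertia at `q ≠ p`.** -/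
theorem cycloCharAdic_inertia {A : ValuationSubring Qbar} {σ : Γ} {q : ℕ} (hq : q.Prime)
    (hqp : q ≠ p) (hqA : A.LiesOverPrime q) (hσ : σ ∈ A.inertiaSubgroupIn ℚ) :
    cycloCharAdic p σ = 1 := by
  apply Units.ext
  rw [Units.val_one]
  refine cycloCharAdic_eq_of_forall p σ 1 fun n t ht => ?_
  have h1 : (PadicInt.toZModPow n (1 : ℤ_[p])) = ((1 : ℕ) : ZMod (p ^ n)) := by
    rw [map_one, Nat.cast_one]
  rw [h1, pow_val_natCast_eq' ht, pow_one]
  exact apply_rootOfUnity_of_mem_inertia hσ hqA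
    (Nat.Coprime.pow_right n ((Nat.coprime_primes hq hp.out).mpr hqp))
    (pow_ne_zero _ hp.out.ne_zero) ht

/-- **Continuity of the `p`-adic cyclotomic character**: it is congruent to `1` modulo `p ^ n` on
the open subgroup fixing `ℚ(ζ_{p^n})`. -/
theorem cycloCharAdic_continuous (n : ℕ) :
    ∃ L : IntermediateField ℚ Qbar, FiniteDimensional ℚ L ∧
      ∀ σ : Γ, (∀ x ∈ L, σ x = x) →
        ((cycloCharAdic p σ : ℤ_[p]ˣ) : ℤ_[p]) - 1 ∈ Ideal.span {(p : ℤ_[p]) ^ n} := by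
  haveI : NeZero (p ^ n) := ⟨pow_ne_zero _ hp.out.ne_zero⟩
  obtain ⟨ζ, hζ⟩ := HasEnoughRootsOfUnity.exists_primitiveRoot Qbar (p ^ n)
  have hint : IsIntegral ℚ ζ := (hζ.isIntegral (pow_pos hp.out.pos n)).tower_top
  refine ⟨IntermediateField.adjoin ℚ {ζ}, IntermediateField.adjoin.finiteDimensional hint,
    fun σ hσ => ?_⟩
  have hσζ : σ ζ = ζ := hσ ζ (IntermediateField.mem_adjoin_simple_self ℚ ζ)
  rw [← PadicInt.ker_toZModPow, RingHom.mem_ker, map_sub, map_one, sub_eq_zero]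
  have h1 : (1 : ZMod (p ^ n)) = ((1 : ℕ) : ZMod (p ^ n)) := by rw [Nat.cast_one]
  rw [h1]
  refine toZModPow_cycloCharAdic_eq_of_forall p σ n _ fun t ht => ?_
  rw [pow_val_natCast_eq' ht, pow_one]
  obtain ⟨i, -, rfl⟩ := hζ.eq_pow_of_pow_eq_one ht
  rw [map_pow, hσζ]

end CycloAdic

/-! ### The canonical map from `ℤ_[p]` to a complete local ring of residue characteristic `p` -/

section ToComplete

variable (p : ℕ) [hp : Fact p.Prime] {𝒪 : Type*} [CommRing 𝒪] (I : Ideal 𝒪)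

theorem natCast_pow_quotient_eq_zero (hpI : (p : 𝒪) ∈ I) (n : ℕ) :
    ((p ^ n : ℕ) : 𝒪 ⧸ I ^ n) = 0 := by
  have h1 : ((p ^ n : ℕ) : 𝒪 ⧸ I ^ n) = Ideal.Quotient.mk (I ^ n) ((p : 𝒪) ^ n) := by
    rw [map_pow, map_natCast, Nat.cast_pow]
  rw [h1, Ideal.Quotient.eq_zero_iff_mem]
  exact Ideal.pow_mem_pow hpI n

/-- The ring homomorphism `ℤ/p^n → 𝒪/I^n` when `p ∈ I`. -/
noncomputable def zmodPowToQuotient (hpI : (p : 𝒪) ∈ I) (n : ℕ) : ZMod (p ^ n) →+* 𝒪 ⧸ I ^ n :=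
  haveI := ringChar.charP (𝒪 ⧸ I ^ n)
  ZMod.castHom (ringChar.dvd (natCast_pow_quotient_eq_zero p I hpI n)) (𝒪 ⧸ I ^ n)

/-- The ring homomorphisms `ℤ_[p] → 𝒪/I^n` when `p ∈ I`. -/
noncomputable def padicIntToQuotient (hpI : (p : 𝒪) ∈ I) (n : ℕ) : ℤ_[p] →+* 𝒪 ⧸ I ^ n :=
  (zmodPowToQuotient p I hpI n).comp (PadicInt.toZModPow n)

theorem factorPow_comp_padicIntToQuotient (hpI : (p : 𝒪) ∈ I) {m n : ℕ} (hle : m ≤ n) :
    (Ideal.Quotient.factorPow I hle).comp (padicIntToQuotient p I hpI n)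
      = padicIntToQuotient p I hpI m := by
  unfold padicIntToQuotient
  rw [← PadicInt.zmod_cast_comp_toZModPow m n hle, ← RingHom.comp_assoc, ← RingHom.comp_assoc]
  congr 1
  exact Subsingleton.elim _ _

/-- **The canonical ring homomorphism `ℤ_[p] →+* 𝒪`** for a ring `𝒪` complete with respect to an
ideal `I` containing `p` (e.g. a complete local ring of residue characteristic `p`). -/
noncomputable def padicIntToComplete [IsAdicComplete I 𝒪] (hpI : (p : 𝒪) ∈ I) : ℤ_[p] →+* 𝒪 :=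
  IsAdicComplete.liftRingHom I (padicIntToQuotient p I hpI)
    (fun hle => factorPow_comp_padicIntToQuotient p I hpI hle)

theorem mk_padicIntToComplete [IsAdicComplete I 𝒪] (hpI : (p : 𝒪) ∈ I) (n : ℕ) (x : ℤ_[p]) :
    Ideal.Quotient.mk (I ^ n) (padicIntToComplete p I hpI x) = padicIntToQuotient p I hpI n x :=
  IsAdicComplete.mk_liftRingHom I _ _ n x

end ToComplete

/-! ### Push-forward of the cyclotomic character -/

section CycloIn

local notation "Qbar" => AlgebraicClosure ℚ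
local notation "Γ" => (AlgebraicClosure ℚ ≃ₐ[ℚ] AlgebraicClosure ℚ)

variable (p : ℕ) [hp : Fact p.Prime] {𝒪 : Type*} [CommRing 𝒪] (f : ℤ_[p] →+* 𝒪)

/-- The `p`-adic cyclotomic character with values in a `ℤ_[p]`-algebra `𝒪` (given by a ring
homomorphism `f : ℤ_[p] →+* 𝒪`). -/
noncomputable def cycloCharIn : Γ →* 𝒪ˣ :=
  (Units.map (f : ℤ_[p] →* 𝒪)).comp (cycloCharAdic p)

theorem coe_cycloCharIn (σ : Γ) :
    ((cycloCharIn p f σ : 𝒪ˣ) : 𝒪) = f ((cycloCharAdic p σ : ℤ_[p]ˣ) : ℤ_[p]) := rfl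

theorem cycloCharIn_frob {A : ValuationSubring Qbar} {σ : Γ} {l : ℕ} (hl : l.Prime)
    (hlp : l ≠ p) (hlA : A.LiesOverPrime l) (hσ : A.IsFrobeniusAt σ l) :
    ((cycloCharIn p f σ : 𝒪ˣ) : 𝒪) = (l : 𝒪) := by
  rw [coe_cycloCharIn, cycloCharAdic_frob p hl hlp hlA hσ, map_natCast]

theorem cycloCharIn_inertia {A : ValuationSubring Qbar} {σ : Γ} {q : ℕ} (hq : q.Prime)
    (hqp : q ≠ p) (hqA : A.LiesOverPrime q) (hσ : σ ∈ A.inertiaSubgroupIn ℚ) :
    cycloCharIn p f σ = 1 := by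
  rw [cycloCharIn, MonoidHom.comp_apply, cycloCharAdic_inertia p hq hqp hqA hσ, map_one]

/-- Continuity: `χ ≡ 1` modulo `I ^ n` on an open subgroup, for every ideal `I ∋ p`. -/
theorem cycloCharIn_continuous_of_mem (I : Ideal 𝒪) (hpI : (p : 𝒪) ∈ I) (n : ℕ) :
    ∃ L : IntermediateField ℚ Qbar, FiniteDimensional ℚ L ∧
      ∀ σ : Γ, (∀ x ∈ L, σ x = x) → ((cycloCharIn p f σ : 𝒪ˣ) : 𝒪) - 1 ∈ I ^ n := by
  obtain ⟨L, hL, h⟩ := cycloCharAdic_continuous p n
  refine ⟨L, hL, fun σ hσ => ?_⟩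
  obtain ⟨c, hc⟩ := Ideal.mem_span_singleton'.mp (h σ hσ)
  have h1 : ((cycloCharIn p f σ : 𝒪ˣ) : 𝒪) - 1 = f c * (p : 𝒪) ^ n := by
    rw [coe_cycloCharIn, ← map_one f, ← map_sub, ← hc, map_mul, map_pow, map_natCast]
  rw [h1]
  exact Ideal.mul_mem_left _ _ (Ideal.pow_mem_pow hpI n)

/-- Continuity for a local ring of residue characteristic `p`. -/
theorem cycloCharIn_continuous [IsLocalRing 𝒪] (hp𝒪 : (p : 𝒪) ∈ IsLocalRing.maximalIdeal 𝒪)
    (n : ℕ) :
    ∃ L : IntermediateField ℚ Qbar, FiniteDimensional ℚ L ∧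
      ∀ σ : Γ, (∀ x ∈ L, σ x = x) →
        ((cycloCharIn p f σ : 𝒪ˣ) : 𝒪) - 1 ∈ IsLocalRing.maximalIdeal 𝒪 ^ n :=
  cycloCharIn_continuous_of_mem p f _ hp𝒪 n

end CycloIn

end Fermat.Agent.N4.FrobDensity
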