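/-
N4 / FrobDensity (helper28): the cyclotomic characters at complex conjugation.

* `complexConjugation_rootOfUnity` : complex conjugation inverts the roots of unity of `ℚ̄`;
* `cycloCharAdic_complexConjugation : cycloCharAdic p complexConjugation = -1`,
  `cycloCharIn_complexConjugation`, `cycloChar_complexConjugation`, `cycloCharMod_complexConjugation`.
-/
import Mathlib
import Fermat.Prelude.Def_GaloisRep_ComplexConjugation
import Fermat.Agent.N4.FrobDensity.CycloAdic

set_option autoImplicit false
set_option linter.deprecated false
set_option linter.unusedSectionVars false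
set_option linter.style.haveILetI false

namespace Fermat.Agent.N4.FrobDensity

section CycloConj

open ExtCitation

local notation "Qbar" => AlgebraicClosure ℚ
local notation "Γ" => (AlgebraicClosure ℚ ≃ₐ[ℚ] AlgebraicClosure ℚ)

/-- **Complex conjugation inverts roots of unity.** -/
theorem complexConjugation_rootOfUnity {n : ℕ} (hn : n ≠ 0) {t : Qbar} (ht : t ^ n = 1) :
    complexConjugation t = t⁻¹ := by
  apply complexEmbedding.toRingHom.injective
  show complexEmbedding (complexConjugation t) = complexEmbedding t⁻¹
  rw [complexEmbedding_complexConjugation, map_inv₀]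
  have h1 : complexEmbedding t ^ n = 1 := by rw [← map_pow, ht, map_one]
  have h2 : ‖complexEmbedding t‖ = 1 := Complex.norm_eq_one_of_pow_eq_one h1 hn
  exact (Complex.inv_eq_conj h2).symm

theorem pow_val_neg_one_eq_inv {m : ℕ} (hm : m ≠ 0) {t : Qbar} (ht : t ^ m = 1) :
    t ^ ((-1 : ZMod m)).val = t⁻¹ := by
  obtain ⟨k, rfl⟩ : ∃ k, m = k + 1 := ⟨m - 1, by omega⟩
  rw [ZMod.val_neg_one]
  apply eq_inv_of_mul_eq_one_left
  rw [← pow_succ]
  exact ht

variable (p : ℕ) [hp : Fact p.Prime]

/-- **The `p`-adic cyclotomic character at complex conjugation is `-1`.** -/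
theorem cycloCharAdic_complexConjugation : cycloCharAdic p complexConjugation = -1 := by
  apply Units.ext
  rw [Units.val_neg, Units.val_one]
  refine cycloCharAdic_eq_of_forall p complexConjugation (-1) fun n t ht => ?_
  have hm : p ^ n ≠ 0 := pow_ne_zero _ hp.out.ne_zero
  rw [map_neg, map_one, pow_val_neg_one_eq_inv hm ht]
  exact complexConjugation_rootOfUnity hm ht

/-- The `𝒪`-valued cyclotomic character at complex conjugation is `-1`. -/
theorem cycloCharIn_complexConjugation {𝒪 : Type*} [CommRing 𝒪] (f : ℤ_[p] →+* 𝒪) :
    cycloCharIn p f complexConjugation = -1 := by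
  rw [cycloCharIn, MonoidHom.comp_apply, cycloCharAdic_complexConjugation]
  apply Units.ext
  rw [Units.coe_map, Units.val_neg, Units.val_one, Units.val_neg, Units.val_one]
  exact (map_neg f 1).trans (by rw [map_one])

/-- The mod `p` cyclotomic character (prelude) at complex conjugation is `-1`. -/
theorem cycloChar_complexConjugation : cycloChar p complexConjugation = -1 := by
  apply Units.ext
  rw [Units.val_neg, Units.val_one]
  refine cycloChar_eq_of_forall p complexConjugation (-1) fun t ht => ?_
  rw [pow_val_neg_one_eq_inv hp.out.ne_zero ht]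
  exact complexConjugation_rootOfUnity hp.out.ne_zero ht

/-- The `k`-valued mod `p` cyclotomic character at complex conjugation is `-1`. -/
theorem cycloCharMod_complexConjugation (k : Type) [Field k] [CharP k p] :
    cycloCharMod p k complexConjugation = -1 := by
  apply Units.ext
  rw [coe_cycloCharMod, cycloChar_complexConjugation, Units.val_neg, Units.val_one, Units.val_neg,
    Units.val_one, map_neg, map_one]

end CycloConj

end Fermat.Agent.N4.FrobDensity
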