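/-
N4 / FrobDensity (helper28): analytic part of the Frobenius density theorem.

For a number field `F` and a set `A` of finite primes of `F` we consider the prime sum
`primeSum F A s = ∑_{v ∈ A} N(v)^(-s)` (`s > 1` real).  Main results
(namespace `Fermat.Agent.N4.FrobDensity`):

* `BddNear f` : `f` is bounded on a right neighbourhood of `1`; closure properties;
  `not_bddNear_mul_log` : `c * log (s - 1)` is not bounded near `1⁺` for `c ≠ 0`.
* `bddNear_primeSum_univ` : `∑_v N(v)^(-s) + log (s - 1)` is bounded near `1⁺`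
  (from the simple pole of the Dedekind zeta function and its Euler product).
* `primeSum_sq_le` : primes `w` of an extension `F'` with `N(w ∩ F)^2 ≤ N(w)` contribute a
  bounded amount.
* `bddNear_fibre` : fibre comparison.  If every prime in `A` has exactly `m` primes of `F'`
  above it, all of the same norm, and all other primes of `F'` (up to a finite set) have
  `N(w ∩ F)^2 ≤ N(w)`, then `∑_w N(w)^(-s) - m * ∑_{v ∈ A} N(v)^(-s)` is bounded near `1⁺`.
-/
import Mathlib
import Fermat.Agent.S14.NormIndexBound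

set_option autoImplicit false
set_option linter.deprecated false
set_option linter.unusedSectionVars false

open IsDedekindDomain Filter Topology NumberField Ideal

namespace Fermat.Agent.N4.FrobDensity

open Fermat.Agent.S14.Zeta

/-! ### Functions bounded near `1⁺` -/

/-- `f` is bounded on a right neighbourhood of `1`. -/
def BddNear (f : ℝ → ℝ) : Prop := ∃ C : ℝ, ∀ᶠ s in 𝓝[>] (1 : ℝ), |f s| ≤ C

theorem BddNear.of_forall {f : ℝ → ℝ} {C : ℝ} (h : ∀ s : ℝ, 1 < s → |f s| ≤ C) : BddNear f :=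
  ⟨C, by filter_upwards [self_mem_nhdsWithin] with s hs using h s hs⟩

theorem bddNear_const (c : ℝ) : BddNear (fun _ => c) :=
  ⟨|c|, Eventually.of_forall fun _ => le_rfl⟩

theorem BddNear.add {f g : ℝ → ℝ} (hf : BddNear f) (hg : BddNear g) :
    BddNear (fun s => f s + g s) := by
  obtain ⟨C, hC⟩ := hf
  obtain ⟨D, hD⟩ := hg
  refine ⟨C + D, ?_⟩
  filter_upwards [hC, hD] with s h1 h2
  exact (abs_add_le _ _).trans (add_le_add h1 h2)

theorem BddNear.neg {f : ℝ → ℝ} (hf : BddNear f) : BddNear (fun s => - f s) := by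
  obtain ⟨C, hC⟩ := hf
  refine ⟨C, ?_⟩
  filter_upwards [hC] with s h1
  rwa [abs_neg]

theorem BddNear.sub {f g : ℝ → ℝ} (hf : BddNear f) (hg : BddNear g) :
    BddNear (fun s => f s - g s) := by
  simpa [sub_eq_add_neg] using hf.add hg.neg

theorem BddNear.const_mul {f : ℝ → ℝ} (c : ℝ) (hf : BddNear f) : BddNear (fun s => c * f s) := by
  obtain ⟨C, hC⟩ := hf
  refine ⟨|c| * C, ?_⟩
  filter_upwards [hC] with s h1
  rw [abs_mul]
  exact mul_le_mul_of_nonneg_left h1 (abs_nonneg c)

theorem BddNear.congr {f g : ℝ → ℝ} (hf : BddNear f) (h : ∀ s : ℝ, 1 < s → f s = g s) :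
    BddNear g := by
  obtain ⟨C, hC⟩ := hf
  refine ⟨C, ?_⟩
  filter_upwards [hC, self_mem_nhdsWithin] with s h1 hs
  rwa [← h s hs]

theorem BddNear.sum {ι : Type*} (T : Finset ι) {f : ι → ℝ → ℝ} (hf : ∀ i ∈ T, BddNear (f i)) :
    BddNear (fun s => ∑ i ∈ T, f i s) := by
  classical
  induction T using Finset.induction_on with
  | empty => simpa using bddNear_const 0
  | insert a T ha ih =>
    have h1 : BddNear (f a) := hf a (Finset.mem_insert_self a T)
    have h2 : BddNear (fun s => ∑ i ∈ T, f i s) :=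
      ih fun i hi => hf i (Finset.mem_insert_of_mem hi)
    refine (h1.add h2).congr fun s _ => ?_
    rw [Finset.sum_insert ha]

/-- squeeze: `0 ≤ f ≤ g` on `(1, ∞)` and `g` bounded near `1⁺`. -/
theorem BddNear.of_nonneg_of_le {f g : ℝ → ℝ} (hg : BddNear g)
    (h0 : ∀ s : ℝ, 1 < s → 0 ≤ f s) (hle : ∀ s : ℝ, 1 < s → f s ≤ g s) : BddNear f := by
  obtain ⟨C, hC⟩ := hg
  refine ⟨C, ?_⟩
  filter_upwards [hC, self_mem_nhdsWithin] with s h1 hs
  rw [abs_of_nonneg (h0 s hs)]
  exact (hle s hs).trans ((le_abs_self _).trans h1)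

theorem BddNear.of_tendsto {f : ℝ → ℝ} {a : ℝ} (h : Tendsto f (𝓝[>] (1 : ℝ)) (𝓝 a)) :
    BddNear f := by
  refine ⟨|a| + 1, ?_⟩
  have h1 : ∀ᶠ s in 𝓝[>] (1 : ℝ), f s ∈ Metric.ball a 1 := h (Metric.ball_mem_nhds a one_pos)
  filter_upwards [h1] with s hs
  rw [Metric.mem_ball, Real.dist_eq] at hs
  have := abs_sub_abs_le_abs_sub (f s) a
  linarith

theorem tendsto_log_sub_one : Tendsto (fun s : ℝ => Real.log (s - 1)) (𝓝[>] (1 : ℝ)) atBot := by
  have h1 : Tendsto (fun s : ℝ => s - 1) (𝓝[>] (1 : ℝ)) (𝓝[>] (0 : ℝ)) := by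
    refine tendsto_nhdsWithin_of_tendsto_nhds_of_eventually_within _ ?_ ?_
    · have : Tendsto (fun s : ℝ => s - 1) (𝓝 (1 : ℝ)) (𝓝 (1 - 1)) :=
        (continuous_id.sub continuous_const).tendsto 1
      rw [sub_self] at this
      exact this.mono_left nhdsWithin_le_nhds
    · filter_upwards [self_mem_nhdsWithin] with s hs
      exact sub_pos.mpr (Set.mem_Ioi.mp hs)
  exact Real.tendsto_log_nhdsGT_zero.comp h1

/-- `c * log (s - 1)` is unbounded near `1⁺` for `c ≠ 0`. -/
theorem not_bddNear_mul_log {c : ℝ} (hc : c ≠ 0) :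
    ¬ BddNear (fun s => c * Real.log (s - 1)) := by
  rintro ⟨C, hC⟩
  have h1 : ∀ᶠ s in 𝓝[>] (1 : ℝ), Real.log (s - 1) < -(C / |c|) - 1 :=
    tendsto_log_sub_one.eventually (eventually_lt_atBot _)
  obtain ⟨s, h2, h3⟩ := (hC.and h1).exists
  rw [abs_mul] at h2
  have hcpos : 0 < |c| := abs_pos.mpr hc
  have h4 : |Real.log (s - 1)| ≤ C / |c| := by
    rw [le_div_iff₀ hcpos]
    linarith [mul_comm |c| |Real.log (s - 1)|]
  have h5 := neg_abs_le (Real.log (s - 1))
  linarith

/-! ### Prime sums -/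

section PrimeSum

variable (F : Type*) [Field F] [NumberField F]

/-- `N(v)^(-s)`. -/
noncomputable def nrm (s : ℝ) (v : HeightOneSpectrum (𝓞 F)) : ℝ :=
  (absNorm v.asIdeal : ℝ) ^ (-s)

/-- The prime sum `∑_{v ∈ A} N(v)^(-s)`. -/
noncomputable def primeSum (A : Set (HeightOneSpectrum (𝓞 F))) (s : ℝ) : ℝ :=
  ∑' v : HeightOneSpectrum (𝓞 F), A.indicator (nrm F s) v

variable {F}

theorem nrm_pos (s : ℝ) (v : HeightOneSpectrum (𝓞 F)) : 0 < nrm F s v :=
  rpow_neg_pos (two_le_absNorm v) s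

theorem nrm_nonneg (s : ℝ) (v : HeightOneSpectrum (𝓞 F)) : 0 ≤ nrm F s v := (nrm_pos s v).le

theorem nrm_le_half {s : ℝ} (hs : 1 ≤ s) (v : HeightOneSpectrum (𝓞 F)) : nrm F s v ≤ 1 / 2 :=
  rpow_neg_le_half (two_le_absNorm v) hs

theorem asIdeal_injective :
    Function.Injective (fun v : HeightOneSpectrum (𝓞 F) => v.asIdeal) :=
  fun _ _ h => HeightOneSpectrum.ext h

theorem summable_nrm {s : ℝ} (hs : 1 < s) : Summable (nrm F s) :=
  (summable_rpow F hs).comp_injective asIdeal_injective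

theorem summable_indicator_nrm (A : Set (HeightOneSpectrum (𝓞 F))) {s : ℝ} (hs : 1 < s) :
    Summable (A.indicator (nrm F s)) :=
  (summable_nrm hs).indicator A

theorem indicator_nrm_nonneg (A : Set (HeightOneSpectrum (𝓞 F))) (s : ℝ)
    (v : HeightOneSpectrum (𝓞 F)) : 0 ≤ A.indicator (nrm F s) v :=
  Set.indicator_nonneg (fun v _ => nrm_nonneg s v) v

theorem primeSum_nonneg (A : Set (HeightOneSpectrum (𝓞 F))) (s : ℝ) : 0 ≤ primeSum F A s :=
  tsum_nonneg (indicator_nrm_nonneg A s)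

theorem primeSum_mono {A B : Set (HeightOneSpectrum (𝓞 F))} (h : A ⊆ B) {s : ℝ} (hs : 1 < s) :
    primeSum F A s ≤ primeSum F B s :=
  (summable_indicator_nrm A hs).tsum_le_tsum
    (fun v => Set.indicator_le_indicator_of_subset h (fun v => nrm_nonneg s v) v)
    (summable_indicator_nrm B hs)

theorem primeSum_union {A B : Set (HeightOneSpectrum (𝓞 F))} (h : Disjoint A B) {s : ℝ}
    (hs : 1 < s) : primeSum F (A ∪ B) s = primeSum F A s + primeSum F B s := by
  rw [primeSum, primeSum, primeSum,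
    ← (summable_indicator_nrm A hs).tsum_add (summable_indicator_nrm B hs)]
  refine tsum_congr fun v => ?_
  rw [Set.indicator_union_of_disjoint h]

theorem primeSum_le_add {A B C : Set (HeightOneSpectrum (𝓞 F))} (h : A ⊆ B ∪ C) {s : ℝ}
    (hs : 1 < s) : primeSum F A s ≤ primeSum F B s + primeSum F C s := by
  have h1 : B ∪ C = B ∪ (C \ B) := by rw [Set.union_diff_self]
  have h2 : primeSum F (B ∪ C) s = primeSum F B s + primeSum F (C \ B) s := by
    rw [h1]
    exact primeSum_union Set.disjoint_sdiff_right hs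
  have h3 := primeSum_mono h hs
  have h4 : primeSum F (C \ B) s ≤ primeSum F C s := primeSum_mono Set.diff_subset hs
  linarith

theorem primeSum_add_compl (A : Set (HeightOneSpectrum (𝓞 F))) {s : ℝ} (hs : 1 < s) :
    primeSum F A s + primeSum F Aᶜ s = primeSum F Set.univ s := by
  rw [← primeSum_union disjoint_compl_right hs, Set.union_compl_self]

open scoped Classical in
theorem primeSum_biUnion {ι : Type*} (T : Finset ι) (A : ι → Set (HeightOneSpectrum (𝓞 F)))
    (hd : ∀ i ∈ T, ∀ j ∈ T, i ≠ j → Disjoint (A i) (A j)) {s : ℝ} (hs : 1 < s) :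
    primeSum F (⋃ i ∈ T, A i) s = ∑ i ∈ T, primeSum F (A i) s := by
  induction T using Finset.induction_on with
  | empty => simp [primeSum]
  | insert a T ha ih =>
    rw [Finset.set_biUnion_insert, Finset.sum_insert ha, primeSum_union _ hs, ih]
    · intro i hi j hj hij
      exact hd i (Finset.mem_insert_of_mem hi) j (Finset.mem_insert_of_mem hj) hij
    · rw [Set.disjoint_iUnion₂_right]
      intro i hi
      exact hd a (Finset.mem_insert_self a T) i (Finset.mem_insert_of_mem hi)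
        (fun h => ha (h ▸ hi))

open scoped Classical in
theorem sum_indicator_eq (A : Set (HeightOneSpectrum (𝓞 F))) (s : ℝ)
    (T : Finset (HeightOneSpectrum (𝓞 F))) :
    ∑ v ∈ T, A.indicator (nrm F s) v = ∑ v ∈ T.filter (· ∈ A), nrm F s v := by
  rw [Finset.sum_filter]
  refine Finset.sum_congr rfl fun v _ => ?_
  by_cases hv : v ∈ A
  · rw [Set.indicator_of_mem hv, if_pos hv]
  · rw [Set.indicator_of_notMem hv, if_neg hv]

theorem primeSum_le_of_forall_sum_le (A : Set (HeightOneSpectrum (𝓞 F))) {s C : ℝ}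
    (hs : 1 < s)
    (h : ∀ T : Finset (HeightOneSpectrum (𝓞 F)), (∀ v ∈ T, v ∈ A) → ∑ v ∈ T, nrm F s v ≤ C) :
    primeSum F A s ≤ C := by
  classical
  refine (summable_indicator_nrm A hs).tsum_le_of_sum_le fun T => ?_
  rw [sum_indicator_eq]
  exact h _ fun v hv => (Finset.mem_filter.mp hv).2

theorem sum_le_primeSum (A : Set (HeightOneSpectrum (𝓞 F))) {s : ℝ} (hs : 1 < s)
    (T : Finset (HeightOneSpectrum (𝓞 F))) (hT : ∀ v ∈ T, v ∈ A) :
    ∑ v ∈ T, nrm F s v ≤ primeSum F A s := by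
  have h1 : ∑ v ∈ T, nrm F s v = ∑ v ∈ T, A.indicator (nrm F s) v :=
    Finset.sum_congr rfl fun v hv => (Set.indicator_of_mem (hT v hv) _).symm
  rw [h1]
  exact (summable_indicator_nrm A hs).sum_le_tsum T (fun v _ => indicator_nrm_nonneg A s v)

theorem primeSum_finite_le {A : Set (HeightOneSpectrum (𝓞 F))} (hA : A.Finite) {s : ℝ}
    (hs : 1 < s) : primeSum F A s ≤ hA.toFinset.card := by
  classical
  refine primeSum_le_of_forall_sum_le A hs fun T hT => ?_
  have h1 : ∑ v ∈ T, nrm F s v ≤ ∑ _v ∈ T, (1 : ℝ) :=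
    Finset.sum_le_sum fun v _ => (nrm_le_half hs.le v).trans (by norm_num)
  have h2 : T.card ≤ hA.toFinset.card :=
    Finset.card_le_card fun v hv => hA.mem_toFinset.mpr (hT v hv)
  rw [Finset.sum_const, nsmul_eq_mul, mul_one] at h1
  exact h1.trans (by exact_mod_cast h2)

theorem bddNear_primeSum_of_finite {A : Set (HeightOneSpectrum (𝓞 F))} (hA : A.Finite) :
    BddNear (primeSum F A) :=
  BddNear.of_forall (C := hA.toFinset.card) fun s hs => by
    rw [abs_of_nonneg (primeSum_nonneg A s)]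
    exact primeSum_finite_le hA hs

end PrimeSum

/-! ### The logarithm of the Euler product -/

section LogIneq

theorem le_neg_log_one_sub {x : ℝ} (hx : x < 1) : x ≤ -Real.log (1 - x) := by
  have h := Real.log_le_sub_one_of_pos (show 0 < 1 - x by linarith)
  linarith

theorem neg_log_one_sub_le {x : ℝ} (hx0 : 0 ≤ x) (hx : x ≤ 1 / 2) :
    -Real.log (1 - x) ≤ x + 2 * x ^ 2 := by
  have hpos : 0 < 1 - x := by linarith
  have h := Real.log_le_sub_one_of_pos (inv_pos.mpr hpos)
  rw [Real.log_inv] at h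
  have h2 : (1 - x)⁻¹ - 1 ≤ x + 2 * x ^ 2 := by
    rw [sub_le_iff_le_add, inv_le_iff_one_le_mul₀ hpos]
    nlinarith [mul_nonneg hx0 hx0, mul_nonneg (mul_nonneg hx0 hx0) (show 0 ≤ 1 - 2 * x by linarith)]
  linarith

end LogIneq

section Z1

variable (F : Type*) [Field F] [NumberField F]

theorem one_le_zetaR {s : ℝ} (hs : 1 < s) : 1 ≤ zetaR F s := by
  simpa using prod_le_zetaR F hs ∅

theorem sum_nrm_two_le (T : Finset (HeightOneSpectrum (𝓞 F))) :
    ∑ v ∈ T, nrm F 2 v ≤ zetaR F 2 := by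
  classical
  have h2 : (1 : ℝ) < 2 := by norm_num
  have h1 : ∑ v ∈ T, nrm F 2 v
      = ∑ I ∈ T.image (fun v : HeightOneSpectrum (𝓞 F) => v.asIdeal),
          (absNorm I : ℝ) ^ (-(2 : ℝ)) := by
    rw [Finset.sum_image (fun v _ w _ h => asIdeal_injective h)]
    rfl
  rw [h1]
  exact (summable_rpow F h2).sum_le_tsum _
    (fun I _ => Real.rpow_nonneg (Nat.cast_nonneg _) _)

theorem nrm_sq_le {s : ℝ} (hs : 1 ≤ s) (v : HeightOneSpectrum (𝓞 F)) :
    nrm F s v ^ 2 ≤ nrm F 2 v := by
  have hN : (1 : ℝ) ≤ absNorm v.asIdeal := by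
    exact_mod_cast (show 1 ≤ absNorm v.asIdeal from le_trans (by norm_num) (two_le_absNorm v))
  have hN0 : (0 : ℝ) ≤ absNorm v.asIdeal := by linarith
  rw [nrm, nrm, ← Real.rpow_natCast, ← Real.rpow_mul hN0]
  apply Real.rpow_le_rpow_of_exponent_le hN
  push_cast
  linarith

theorem prod_factor_pos {s : ℝ} (hs : 1 < s) (T : Finset (HeightOneSpectrum (𝓞 F))) :
    0 < ∏ v ∈ T, (1 - nrm F s v)⁻¹ :=
  Finset.prod_pos fun v _ => inv_pos.mpr (by linarith [nrm_le_half hs.le v])

theorem log_prod_factor {s : ℝ} (hs : 1 < s) (T : Finset (HeightOneSpectrum (𝓞 F))) :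
    Real.log (∏ v ∈ T, (1 - nrm F s v)⁻¹) = ∑ v ∈ T, -Real.log (1 - nrm F s v) := by
  rw [Real.log_prod]
  · refine Finset.sum_congr rfl fun v _ => ?_
    rw [Real.log_inv]
  · intro v _
    exact (inv_pos.mpr (by linarith [nrm_le_half hs.le v])).ne'

theorem primeSum_univ_le_log_zetaR {s : ℝ} (hs : 1 < s) :
    primeSum F Set.univ s ≤ Real.log (zetaR F s) := by
  refine primeSum_le_of_forall_sum_le _ hs fun T _ => ?_
  calc ∑ v ∈ T, nrm F s v ≤ ∑ v ∈ T, -Real.log (1 - nrm F s v) :=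
        Finset.sum_le_sum fun v _ =>
          le_neg_log_one_sub (by linarith [nrm_le_half hs.le v])
    _ = Real.log (∏ v ∈ T, (1 - nrm F s v)⁻¹) := (log_prod_factor F hs T).symm
    _ ≤ Real.log (zetaR F s) :=
        Real.log_le_log (prod_factor_pos F hs T) (prod_le_zetaR F hs T)

theorem log_zetaR_le {s : ℝ} (hs : 1 < s) :
    Real.log (zetaR F s) ≤ primeSum F Set.univ s + 2 * zetaR F 2 := by
  have hpos : 0 < zetaR F s := lt_of_lt_of_le one_pos (one_le_zetaR F hs)
  rw [Real.log_le_iff_le_exp hpos]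
  refine Fermat.Agent.S14.Zeta.hasProd_le_of_prod_le (zetaR_eulerProduct F hs) fun T => ?_
  have h0 : ∏ v ∈ T, (1 - (absNorm v.asIdeal : ℝ) ^ (-s))⁻¹ = ∏ v ∈ T, (1 - nrm F s v)⁻¹ := rfl
  rw [h0, ← Real.exp_log (prod_factor_pos F hs T)]
  apply Real.exp_le_exp.mpr
  rw [log_prod_factor F hs T]
  calc ∑ v ∈ T, -Real.log (1 - nrm F s v)
      ≤ ∑ v ∈ T, (nrm F s v + 2 * nrm F 2 v) := by
        refine Finset.sum_le_sum fun v _ => ?_
        have h1 := neg_log_one_sub_le (nrm_nonneg s v) (nrm_le_half hs.le v)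
        have h2 := nrm_sq_le F hs.le v
        linarith
    _ = ∑ v ∈ T, nrm F s v + 2 * ∑ v ∈ T, nrm F 2 v := by
        rw [Finset.sum_add_distrib, Finset.mul_sum]
    _ ≤ primeSum F Set.univ s + 2 * zetaR F 2 := by
        have h1 := sum_le_primeSum (F := F) Set.univ hs T (fun v _ => Set.mem_univ v)
        have h2 := sum_nrm_two_le F T
        linarith

theorem bddNear_log_zetaR : BddNear (fun s => Real.log (zetaR F s) + Real.log (s - 1)) := by
  have hres := dedekindZeta_residue_pos F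
  have h1 : Tendsto (fun s : ℝ => Real.log ((s - 1) * zetaR F s)) (𝓝[>] (1 : ℝ))
      (𝓝 (Real.log (dedekindZeta_residue F))) :=
    (Real.continuousAt_log hres.ne').tendsto.comp (tendsto_sub_one_mul_zetaR F)
  refine (BddNear.of_tendsto h1).congr fun s hs => ?_
  have hz : 0 < zetaR F s := lt_of_lt_of_le one_pos (one_le_zetaR F hs)
  rw [Real.log_mul (sub_pos.mpr hs).ne' hz.ne', add_comm]

/-- **The prime sum of a number field**: `∑_v N(v)^(-s) = - log (s - 1) + O(1)` as `s → 1⁺`. -/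
theorem bddNear_primeSum_univ :
    BddNear (fun s => primeSum F Set.univ s + Real.log (s - 1)) := by
  have h1 : BddNear (fun s => primeSum F Set.univ s - Real.log (zetaR F s)) :=
    BddNear.of_forall (C := 2 * zetaR F 2) fun s hs => by
      rw [abs_le]
      have h2 := primeSum_univ_le_log_zetaR F hs
      have h3 := log_zetaR_le F hs
      have h4 := zetaR_nonneg F 2
      constructor <;> linarith
  refine (h1.add (bddNear_log_zetaR F)).congr fun s _ => ?_
  ring

end Z1

/-! ### Relative statements -/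

section General

/-- Summation along the fibres of a map with fibres of constant finite cardinality `m`
(over the support of `g`). -/
theorem tsum_comp_eq_mul {W V : Type*} (π : W → V) (g : V → ℝ) (m : ℕ)
    (hfin : ∀ v, Finite {w // π w = v})
    (hcard : ∀ v, g v ≠ 0 → Nat.card {w // π w = v} = m)
    (hsum : Summable (fun w => g (π w))) :
    ∑' w, g (π w) = m * ∑' v, g v := by
  have e := Equiv.sigmaFiberEquiv π
  have h1 : ∑' x : (Σ v, {w // π w = v}), g (π ((Equiv.sigmaFiberEquiv π) x))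
      = ∑' w, g (π w) := (Equiv.sigmaFiberEquiv π).tsum_eq (fun w => g (π w))
  have hsum' : Summable (fun x : (Σ v, {w // π w = v}) =>
      g (π ((Equiv.sigmaFiberEquiv π) x))) :=
    ((Equiv.sigmaFiberEquiv π).summable_iff (f := fun w => g (π w))).mpr hsum
  have hfib : ∀ v, ∀ c : {w // π w = v},
      g (π ((Equiv.sigmaFiberEquiv π) ⟨v, c⟩)) = g v := by
    intro v c
    rw [Equiv.sigmaFiberEquiv_apply]
    exact congrArg g c.2
  rw [← h1, hsum'.tsum_sigma' (fun v => ?_)]
  · rw [← tsum_mul_left]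
    refine tsum_congr fun v => ?_
    have h2 : ∑' c : {w // π w = v}, g (π ((Equiv.sigmaFiberEquiv π) ⟨v, c⟩))
        = ∑' _c : {w // π w = v}, g v := tsum_congr fun c => hfib v c
    rw [h2, tsum_const, nsmul_eq_mul]
    by_cases hg : g v = 0
    · rw [hg, mul_zero, mul_zero]
    · rw [hcard v hg]
  · have := hfin v
    have := Fintype.ofFinite {w // π w = v}
    exact (hasSum_fintype _).summable

end General

section Relative

variable {F F' : Type*} [Field F] [NumberField F] [Field F'] [NumberField F'] [Algebra F F']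

/-- Primes `w` of `F'` with `N(w ∩ F)^2 ≤ N(w)` contribute a bounded amount. -/
theorem primeSum_sq_le (A' : Set (HeightOneSpectrum (𝓞 F')))
    (h : ∀ w ∈ A', absNorm (w.under (𝓞 F)).asIdeal ^ 2 ≤ absNorm w.asIdeal) {s : ℝ}
    (hs : 1 < s) : primeSum F' A' s ≤ Module.finrank F F' * zetaR F 2 := by
  classical
  refine primeSum_le_of_forall_sum_le A' hs fun T hT => ?_
  set π : HeightOneSpectrum (𝓞 F') → HeightOneSpectrum (𝓞 F) := fun w => w.under (𝓞 F) with hπ
  set n : ℕ := Module.finrank F F' with hn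
  have h1 : ∑ w ∈ T, nrm F' s w ≤ ∑ w ∈ T, nrm F 2 (π w) :=
    Finset.sum_le_sum fun w hw =>
      rpow_neg_le_rpow_neg_two (two_le_absNorm _) (h w (hT w hw)) hs.le
  have h2 : ∑ w ∈ T, nrm F 2 (π w)
      = ∑ v ∈ T.image π, (T.filter fun w => π w = v).card • nrm F 2 v :=
    Finset.sum_comp (nrm F 2) π
  have h3 : ∑ v ∈ T.image π, (T.filter fun w => π w = v).card • nrm F 2 v
      ≤ ∑ v ∈ T.image π, (n : ℝ) * nrm F 2 v := by
    refine Finset.sum_le_sum fun v _ => ?_
    rw [nsmul_eq_mul]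
    have h4 : (T.filter fun w => π w = v).card ≤ n := card_filter_under_le T v
    have h5 : (((T.filter fun w => π w = v).card : ℕ) : ℝ) ≤ (n : ℝ) := Nat.cast_le.mpr h4
    exact mul_le_mul_of_nonneg_right h5 (nrm_nonneg 2 v)
  have h6 : ∑ v ∈ T.image π, (n : ℝ) * nrm F 2 v = n * ∑ v ∈ T.image π, nrm F 2 v :=
    (Finset.mul_sum _ _ _).symm
  have h7 : (n : ℝ) * ∑ v ∈ T.image π, nrm F 2 v ≤ n * zetaR F 2 :=
    mul_le_mul_of_nonneg_left (sum_nrm_two_le F _) (Nat.cast_nonneg _)
  linarith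

theorem finite_fibre (v : HeightOneSpectrum (𝓞 F)) :
    Finite {w : HeightOneSpectrum (𝓞 F') // w.under (𝓞 F) = v} := by
  classical
  have := v.isMaximal
  let f : {w : HeightOneSpectrum (𝓞 F') // w.under (𝓞 F) = v} →
      (v.asIdeal.primesOver (𝓞 F')) := fun w =>
    ⟨w.1.asIdeal, w.1.isPrime, ⟨(congrArg HeightOneSpectrum.asIdeal w.2).symm⟩⟩
  have hf : Function.Injective f := by
    intro w w' h
    apply Subtype.ext
    apply HeightOneSpectrum.ext
    exact congrArg (fun x : v.asIdeal.primesOver (𝓞 F') => x.1) h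
  exact Finite.of_injective f hf

/-- **Fibre comparison.** -/
theorem bddNear_fibre (A : Set (HeightOneSpectrum (𝓞 F)))
    (B : Set (HeightOneSpectrum (𝓞 F'))) (hB : B.Finite) (m : ℕ)
    (hcard : ∀ v ∈ A, Nat.card {w : HeightOneSpectrum (𝓞 F') // w.under (𝓞 F) = v} = m)
    (hnorm : ∀ w : HeightOneSpectrum (𝓞 F'), w.under (𝓞 F) ∈ A →
      absNorm w.asIdeal = absNorm (w.under (𝓞 F)).asIdeal)
    (hsq : ∀ w : HeightOneSpectrum (𝓞 F'), w ∉ B → w.under (𝓞 F) ∉ A →
      absNorm (w.under (𝓞 F)).asIdeal ^ 2 ≤ absNorm w.asIdeal) :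
    BddNear (fun s => primeSum F' Set.univ s - m * primeSum F A s) := by
  classical
  set π : HeightOneSpectrum (𝓞 F') → HeightOneSpectrum (𝓞 F) := fun w => w.under (𝓞 F) with hπ
  set A' : Set (HeightOneSpectrum (𝓞 F')) := π ⁻¹' A with hA'
  -- the main term
  have hmain : ∀ s : ℝ, 1 < s → primeSum F' A' s = m * primeSum F A s := by
    intro s hs
    have h1 : ∀ w, A'.indicator (nrm F' s) w = A.indicator (nrm F s) (π w) := by
      intro w
      by_cases hw : π w ∈ A
      · rw [Set.indicator_of_mem (show w ∈ A' from hw), Set.indicator_of_mem hw, nrm, nrm,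
          hnorm w hw]
      · rw [Set.indicator_of_notMem (show w ∉ A' from hw), Set.indicator_of_notMem hw]
    have h2 : Summable (fun w => A.indicator (nrm F s) (π w)) :=
      (summable_indicator_nrm A' hs).congr h1
    rw [primeSum, primeSum, tsum_congr h1]
    refine tsum_comp_eq_mul π (A.indicator (nrm F s)) m finite_fibre (fun v hv => ?_) h2
    exact hcard v (Set.mem_of_indicator_ne_zero hv)
  -- the error term
  have herr : ∀ s : ℝ, 1 < s →
      primeSum F' A'ᶜ s ≤ hB.toFinset.card + Module.finrank F F' * zetaR F 2 := by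
    intro s hs
    have h1 : A'ᶜ ⊆ B ∪ (A'ᶜ \ B) := by
      intro w hw
      by_cases hwB : w ∈ B
      · exact Or.inl hwB
      · exact Or.inr ⟨hw, hwB⟩
    have h2 := primeSum_le_add h1 hs
    have h3 := primeSum_finite_le hB hs
    have h4 := primeSum_sq_le (F := F) (A'ᶜ \ B) (fun w hw => hsq w hw.2 hw.1) hs
    linarith
  refine BddNear.of_forall (C := hB.toFinset.card + Module.finrank F F' * zetaR F 2)
    fun s hs => ?_
  rw [← hmain s hs, ← primeSum_add_compl A' hs, add_sub_cancel_left,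
    abs_of_nonneg (primeSum_nonneg _ s)]
  exact herr s hs

end Relative

end Fermat.Agent.N4.FrobDensity
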