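/-
N4 / FrobDensity (helper28): algebraic part of the Frobenius density theorem.

Tower `E ⊆ K ⊆ L` of number fields with `L/E` abelian (Galois with commutative group).  For a
prime `v` of `E` unramified in `L` with Frobenius `φ_v = ArtinMap.frob E L v`:

* if `φ_v` fixes `K` pointwise then every prime `w` of `K` above `v` has `e = f = 1`, and there are
  exactly `[K : E]` of them (`card_fibre_of_frob_fixes`, `absNorm_eq_of_frob_fixes`);
* if some prime `w` of `K` above `v` has `N w = N v` then `φ_v` fixes `K` pointwise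
  (`frob_fixes_of_absNorm_eq`);
* only finitely many primes ramify (`finite_ramified`, `finite_not_unramifiedAt`);
* consequence (`bddNear_split`): the primes `v` (unramified in `L`) whose Frobenius fixes `K`
  have prime sum `(1/[K:E]) * (- log (s - 1)) + O(1)`.
-/
import Mathlib
import Fermat.Agent.S14.SplitInFixed
import Fermat.Agent.N4.FrobDensity.PrimeSum

set_option autoImplicit false
set_option linter.deprecated false
set_option linter.unusedSectionVars false
set_option linter.style.haveILetI false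

open IsDedekindDomain NumberField Ideal

namespace Fermat.Agent.N4.FrobDensity

open Fermat.Agent.S14.ArtinMap Fermat.Agent.S14.ArtinSplit Fermat.Agent.S14.SplitInFixed
open Fermat.Agent.S14.Zeta
open scoped Pointwise

/-! ### Finitely many primes ramify -/

section Ramified

variable (E L : Type*) [Field E] [Field L] [NumberField E] [NumberField L] [Algebra E L]
  [IsGalois E L]

/-- A prime of `𝓞 L` not dividing the different of `L/E` has trivial inertia group. -/
theorem inertia_eq_bot_of_not_dvd_different (w : HeightOneSpectrum (𝓞 L))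
    (hw : ¬ w.asIdeal ∣ differentIdeal (𝓞 E) (𝓞 L)) :
    w.asIdeal.inertia Gal(L/E) = ⊥ := by
  have hunr : Algebra.IsUnramifiedAt (𝓞 E) w.asIdeal := not_dvd_differentIdeal_iff.mp hw
  have he : w.asIdeal.ramificationIdx (𝓞 E) = 1 := Ideal.ramificationIdx_eq_one_of_isUnramifiedAt
  have hlo : w.asIdeal.LiesOver (w.asIdeal.under (𝓞 E)) := ⟨rfl⟩
  have hp : (w.asIdeal.under (𝓞 E)).IsPrime := Ideal.IsPrime.under (𝓞 E) w.asIdeal
  have h1 := Ideal.card_inertia_eq_ramificationIdxIn (G := Gal(L/E)) (w.asIdeal.under (𝓞 E))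
    w.asIdeal
  rw [Ideal.ramificationIdxIn_eq_ramificationIdx (w.asIdeal.under (𝓞 E)) w.asIdeal Gal(L/E),
    he] at h1
  exact Subgroup.eq_bot_of_card_eq _ h1

/-- Only finitely many primes of `L` have a nontrivial inertia group in `Gal(L/E)`. -/
theorem finite_ramified :
    {w : HeightOneSpectrum (𝓞 L) | w.asIdeal.inertia Gal(L/E) ≠ ⊥}.Finite := by
  have h0 : differentIdeal (𝓞 E) (𝓞 L) ≠ 0 := differentIdeal_ne_bot
  refine (Ideal.finite_factors h0).subset fun w hw => ?_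
  by_contra hnd
  exact hw (inertia_eq_bot_of_not_dvd_different E L w hnd)

variable {E L}

theorem unramifiedAt_of_forall (v : HeightOneSpectrum (𝓞 E))
    (h : ∀ w : HeightOneSpectrum (𝓞 L), w.under (𝓞 E) = v → w.asIdeal.inertia Gal(L/E) = ⊥) :
    UnramifiedAt E L v.asIdeal := by
  intro Q hQ hQo
  have hQ0 : Q ≠ ⊥ := ne_bot_of_liesOver L v.ne_bot Q
  exact h ⟨Q, hQ, hQ0⟩ (HeightOneSpectrum.ext hQo.over.symm)

variable (E L)

/-- Only finitely many primes of `E` ramify in `L`. -/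
theorem finite_not_unramifiedAt :
    {v : HeightOneSpectrum (𝓞 E) | ¬ UnramifiedAt E L v.asIdeal}.Finite := by
  refine ((finite_ramified E L).image fun w => w.under (𝓞 E)).subset fun v hv => ?_
  by_contra hne
  apply hv
  refine unramifiedAt_of_forall v fun w hw => ?_
  by_contra hw'
  exact hne ⟨w, hw', hw⟩

end Ramified

/-! ### The tower -/

section Tower

variable {E K L : Type*} [Field E] [Field K] [Field L] [NumberField E] [NumberField K]
  [NumberField L] [Algebra E K] [Algebra K L] [Algebra E L] [IsScalarTower E K L]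
  [IsGalois E L]

theorem exists_prime_over (w : HeightOneSpectrum (𝓞 K)) :
    ∃ 𝔓 : Ideal (𝓞 L), 𝔓.IsPrime ∧ 𝔓 ≠ ⊥ ∧ 𝔓.under (𝓞 K) = w.asIdeal := by
  haveI := w.isPrime
  obtain ⟨⟨𝔓, h𝔓p, h𝔓o⟩⟩ := (inferInstance : Nonempty (w.asIdeal.primesOver (𝓞 L)))
  exact ⟨𝔓, h𝔓p, ne_bot_of_liesOver L w.ne_bot 𝔓, h𝔓o.over.symm⟩

theorem under_under_eq (w : HeightOneSpectrum (𝓞 K)) {𝔓 : Ideal (𝓞 L)}
    (h : 𝔓.under (𝓞 K) = w.asIdeal) : 𝔓.under (𝓞 E) = (w.under (𝓞 E)).asIdeal := by
  rw [← Ideal.under_under (B := 𝓞 K), h]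
  rfl

variable [IsMulCommutative Gal(L/E)]

/-- If the Frobenius of `v` fixes `K` then all primes of `K` above `v` have residue degree one,
hence the same norm as `v`. -/
theorem absNorm_eq_of_frob_fixes (w : HeightOneSpectrum (𝓞 K))
    (hfix : ∀ x : K, frob E L (w.under (𝓞 E)).asIdeal (algebraMap K L x) = algebraMap K L x) :
    absNorm w.asIdeal = absNorm (w.under (𝓞 E)).asIdeal := by
  obtain ⟨𝔓, h𝔓p, h𝔓0, h𝔓w⟩ := exists_prime_over (L := L) w
  have h𝔓v : 𝔓.under (𝓞 E) = (w.under (𝓞 E)).asIdeal := under_under_eq w h𝔓w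
  haveI : 𝔓.LiesOver (w.under (𝓞 E)).asIdeal := ⟨h𝔓v.symm⟩
  haveI := (w.under (𝓞 E)).isPrime
  have hfrob : IsArithFrobAt (𝓞 E) (frob E L (w.under (𝓞 E)).asIdeal) 𝔓 :=
    isArithFrobAt_frob (w.under (𝓞 E)).ne_bot 𝔓
  have h1 := inertiaDeg_under_eq_one (K := E) (E := K) (Ω := L) h𝔓0 hfrob hfix
  rw [h𝔓w] at h1
  have hlo : w.asIdeal.LiesOver (w.under (𝓞 E)).asIdeal := ⟨rfl⟩
  haveI := w.isPrime
  rw [← Ideal.absNorm_pow_inertiaDeg (w.under (𝓞 E)).asIdeal w.asIdeal, h1, pow_one]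

theorem inertiaDeg_eq_one_of_frob_fixes (w : HeightOneSpectrum (𝓞 K))
    (hfix : ∀ x : K, frob E L (w.under (𝓞 E)).asIdeal (algebraMap K L x) = algebraMap K L x) :
    w.asIdeal.inertiaDeg (𝓞 E) = 1 := by
  obtain ⟨𝔓, h𝔓p, h𝔓0, h𝔓w⟩ := exists_prime_over (L := L) w
  have h𝔓v : 𝔓.under (𝓞 E) = (w.under (𝓞 E)).asIdeal := under_under_eq w h𝔓w
  haveI : 𝔓.LiesOver (w.under (𝓞 E)).asIdeal := ⟨h𝔓v.symm⟩
  haveI := (w.under (𝓞 E)).isPrime
  have hfrob : IsArithFrobAt (𝓞 E) (frob E L (w.under (𝓞 E)).asIdeal) 𝔓 :=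
    isArithFrobAt_frob (w.under (𝓞 E)).ne_bot 𝔓
  have h1 := inertiaDeg_under_eq_one (K := E) (E := K) (Ω := L) h𝔓0 hfrob hfix
  rwa [h𝔓w] at h1

omit [IsMulCommutative Gal(L/E)] in
theorem ramificationIdx_eq_one_of_unramifiedAt (w : HeightOneSpectrum (𝓞 K))
    (hv : UnramifiedAt E L (w.under (𝓞 E)).asIdeal) :
    w.asIdeal.ramificationIdx (𝓞 E) = 1 := by
  obtain ⟨𝔓, h𝔓p, h𝔓0, h𝔓w⟩ := exists_prime_over (L := L) w
  have h𝔓v : 𝔓.under (𝓞 E) = (w.under (𝓞 E)).asIdeal := under_under_eq w h𝔓w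
  have hin : 𝔓.inertia Gal(L/E) = ⊥ := hv 𝔓 h𝔓p ⟨h𝔓v.symm⟩
  have h1 := ramificationIdx_under_eq_one (K := E) (E := K) (Ω := L) hin
  rwa [h𝔓w] at h1

/-- The primes of `K` above `v` correspond to `v.primesOver (𝓞 K)`. -/
noncomputable def fibreEquiv (v : HeightOneSpectrum (𝓞 E)) :
    {w : HeightOneSpectrum (𝓞 K) // w.under (𝓞 E) = v} ≃ v.asIdeal.primesOver (𝓞 K) where
  toFun w := ⟨w.1.asIdeal, w.1.isPrime, ⟨(congrArg HeightOneSpectrum.asIdeal w.2).symm⟩⟩
  invFun q :=
    haveI := q.2.2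
    ⟨⟨q.1, q.2.1, ne_bot_of_liesOver K v.ne_bot q.1⟩, HeightOneSpectrum.ext q.2.2.over.symm⟩
  left_inv _ := rfl
  right_inv _ := rfl

omit [IsGalois E L] [IsMulCommutative Gal(L/E)] in
/-- If all primes of `K` above `v` have `e = f = 1` there are exactly `[K : E]` of them. -/
theorem card_fibre_eq (v : HeightOneSpectrum (𝓞 E))
    (he : ∀ w : HeightOneSpectrum (𝓞 K), w.under (𝓞 E) = v →
      w.asIdeal.ramificationIdx (𝓞 E) = 1)
    (hf : ∀ w : HeightOneSpectrum (𝓞 K), w.under (𝓞 E) = v → w.asIdeal.inertiaDeg (𝓞 E) = 1) :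
    Nat.card {w : HeightOneSpectrum (𝓞 K) // w.under (𝓞 E) = v} = Module.finrank E K := by
  classical
  haveI := v.isPrime
  haveI := v.isMaximal
  rw [Nat.card_congr (fibreEquiv (K := K) v), Nat.card_eq_fintype_card,
    IsFractionRing.finrank_eq (𝓞 E) E (𝓞 K) K,
    ← Ideal.sum_ramification_inertia_eq_finrank v.asIdeal (𝓞 K), Fintype.card_eq_sum_ones]
  refine Finset.sum_congr rfl fun q _ => ?_
  have h1 := he ((fibreEquiv (K := K) v).symm q).1 ((fibreEquiv (K := K) v).symm q).2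
  have h2 := hf ((fibreEquiv (K := K) v).symm q).1 ((fibreEquiv (K := K) v).symm q).2
  have h3 : ((fibreEquiv (K := K) v).symm q).1.asIdeal = q.1 := rfl
  rw [h3] at h1 h2
  rw [h1, h2]

/-- If the Frobenius of an unramified prime `v` fixes `K` then `v` has exactly `[K : E]` primes
of `K` above it. -/
theorem card_fibre_of_frob_fixes (v : HeightOneSpectrum (𝓞 E))
    (hv : UnramifiedAt E L v.asIdeal)
    (hfix : ∀ x : K, frob E L v.asIdeal (algebraMap K L x) = algebraMap K L x) :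
    Nat.card {w : HeightOneSpectrum (𝓞 K) // w.under (𝓞 E) = v} = Module.finrank E K := by
  refine card_fibre_eq v (fun w hw => ?_) (fun w hw => ?_)
  · subst hw
    exact ramificationIdx_eq_one_of_unramifiedAt (L := L) w hv
  · subst hw
    exact inertiaDeg_eq_one_of_frob_fixes (L := L) w hfix

/-- Conversely, if a prime `w` of `K` above the unramified prime `v` has the same norm as `v`
then the Frobenius of `v` fixes `K`. -/
theorem frob_fixes_of_absNorm_eq (w : HeightOneSpectrum (𝓞 K))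
    (hv : UnramifiedAt E L (w.under (𝓞 E)).asIdeal)
    (h : absNorm w.asIdeal = absNorm (w.under (𝓞 E)).asIdeal) (x : K) :
    frob E L (w.under (𝓞 E)).asIdeal (algebraMap K L x) = algebraMap K L x := by
  obtain ⟨𝔓, h𝔓p, h𝔓0, h𝔓w⟩ := exists_prime_over (L := L) w
  have h𝔓v : 𝔓.under (𝓞 E) = (w.under (𝓞 E)).asIdeal := under_under_eq w h𝔓w
  haveI : 𝔓.LiesOver (w.under (𝓞 E)).asIdeal := ⟨h𝔓v.symm⟩
  haveI : 𝔓.LiesOver w.asIdeal := ⟨h𝔓w.symm⟩
  haveI := (w.under (𝓞 E)).isPrime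
  haveI := w.isPrime
  have hin : 𝔓.inertia Gal(L/E) = ⊥ := hv 𝔓 h𝔓p ⟨h𝔓v.symm⟩
  haveI : IsGalois K L := IsGalois.tower_top_of_isGalois E K L
  haveI : Finite (𝓞 L ⧸ 𝔓) := finite_quotient_of_liesOver L w.ne_bot 𝔓
  set ψ : Gal(L/K) := arithFrobAt (𝓞 K) Gal(L/K) 𝔓 with hψ
  have hψfrob : IsArithFrobAt (𝓞 K) ψ 𝔓 := IsArithFrobAt.arithFrobAt (𝓞 K) Gal(L/K) 𝔓
  set ψ' : Gal(L/E) := AlgEquiv.restrictScalars E ψ with hψ'
  have hpow : IsPowFrobAt ψ' (absNorm (w.under (𝓞 E)).asIdeal) 𝔓 := by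
    intro y
    have h1 := hψfrob y
    rw [card_quotient_under (P := w.asIdeal) 𝔓, h] at h1
    have h2 : ψ' • y = ψ • y := by
      apply RingOfIntegers.ext
      rfl
    rw [h2]
    exact h1
  have heq : ψ' = frob E L (w.under (𝓞 E)).asIdeal :=
    eq_frob_of_isPowFrobAt (w.under (𝓞 E)).ne_bot 𝔓 hin hpow
  rw [← heq]
  exact ψ.commutes x

variable (E K L) in
/-- The primes of `E`, unramified in `L`, whose Frobenius fixes `K` pointwise. -/
def fixSet : Set (HeightOneSpectrum (𝓞 E)) :=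
  {v | UnramifiedAt E L v.asIdeal ∧
    ∀ x : K, frob E L v.asIdeal (algebraMap K L x) = algebraMap K L x}

omit [IsMulCommutative Gal(L/E)] in
theorem finite_under_not_unramifiedAt :
    {w : HeightOneSpectrum (𝓞 K) | ¬ UnramifiedAt E L (w.under (𝓞 E)).asIdeal}.Finite := by
  have h1 := finite_not_unramifiedAt E L
  refine Set.Finite.preimage' (f := fun w : HeightOneSpectrum (𝓞 K) => w.under (𝓞 E)) h1
    fun v _ => ?_
  have h2 : Finite {w : HeightOneSpectrum (𝓞 K) // w.under (𝓞 E) = v} :=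
    finite_fibre (F := E) (F' := K) v
  exact Set.finite_coe_iff.mp h2

variable (E K L) in
/-- **Density of the primes whose Frobenius lies in a subgroup** (tower form): the primes `v` of
`E`, unramified in `L`, whose Frobenius fixes `K`, have prime sum
`(1/[K:E]) * (-log (s-1)) + O(1)`. -/
theorem bddNear_split :
    BddNear (fun s => primeSum E (fixSet E K L) s +
      (1 / (Module.finrank E K : ℝ)) * Real.log (s - 1)) := by
  have hm : (0 : ℝ) < Module.finrank E K := by exact_mod_cast Module.finrank_pos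
  have h1 : BddNear (fun s => primeSum K Set.univ s
      - (Module.finrank E K : ℕ) * primeSum E (fixSet E K L) s) := by
    refine bddNear_fibre (F := E) (F' := K) (fixSet E K L) _
      (finite_under_not_unramifiedAt (E := E) (K := K) (L := L)) (Module.finrank E K)
      (fun v hv => card_fibre_of_frob_fixes v hv.1 hv.2)
      (fun w hw => absNorm_eq_of_frob_fixes (L := L) w hw.2)
      (fun w hwB hwA => ?_)
    have hunr : UnramifiedAt E L (w.under (𝓞 E)).asIdeal := not_not.mp hwB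
    rcases absNorm_eq_or_sq_le (F := E) w with heq | hsq
    · exact absurd ⟨hunr, frob_fixes_of_absNorm_eq w hunr heq⟩ hwA
    · exact hsq
  have h2 := bddNear_primeSum_univ K
  have h3 := (h2.sub h1).const_mul (1 / (Module.finrank E K : ℝ))
  refine h3.congr fun s _ => ?_
  field_simp
  ring

end Tower

end Fermat.Agent.N4.FrobDensity
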