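/-
N4 / FrobDensity (helper28): density of the primes whose Frobenius has a given order, for an
abelian extension `L/E` of number fields.

* `bddNear_ordSet` : the primes `v` of `E`, unramified in `L`, with `orderOf (Frob_v) = d` have
  prime sum `(#{h ∈ Gal(L/E) | orderOf h = d} / [L:E]) * (-log (s-1)) + O(1)`;
* `exists_orderOf_frob_eq` : for every `h₀ ∈ Gal(L/E)` and every set `Y` of primes with bounded
  prime sum there is a prime `v ∉ Y`, unramified in `L`, with `orderOf (Frob_v) = orderOf h₀`.
-/
import Mathlib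
import Fermat.Agent.N4.FrobDensity.SplitFixed

set_option autoImplicit false
set_option linter.deprecated false
set_option linter.unusedSectionVars false
set_option linter.style.haveILetI false

open IsDedekindDomain NumberField Ideal

namespace Fermat.Agent.N4.FrobDensity

open Fermat.Agent.S14.ArtinMap

theorem sum_divisors_eq {M : Type*} [AddCommMonoid M] (f : ℕ → M) {d : ℕ} (hd : d ≠ 0) :
    ∑ i ∈ d.divisors, f i = f d + ∑ i ∈ d.properDivisors, f i := by
  rw [← Nat.insert_self_properDivisors hd, Finset.sum_insert Nat.self_notMem_properDivisors]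

section Abelian

variable (E L : Type*) [Field E] [Field L] [NumberField E] [NumberField L] [Algebra E L]
  [IsGalois E L] [IsMulCommutative Gal(L/E)]

/-- The primes of `E`, unramified in `L`, whose Frobenius has order `d`. -/
def ordSet (d : ℕ) : Set (HeightOneSpectrum (𝓞 E)) :=
  {v | UnramifiedAt E L v.asIdeal ∧ orderOf (frob E L v.asIdeal) = d}

/-- The primes of `E`, unramified in `L`, whose Frobenius is killed by `d`. -/
def powSet (d : ℕ) : Set (HeightOneSpectrum (𝓞 E)) :=
  {v | UnramifiedAt E L v.asIdeal ∧ frob E L v.asIdeal ^ d = 1}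

/-- The subgroup of elements killed by `d`. -/
def powSubgroup (d : ℕ) : Subgroup Gal(L/E) where
  carrier := {h | h ^ d = 1}
  mul_mem' := by
    intro a b ha hb
    simp only [Set.mem_setOf_eq] at ha hb ⊢
    rw [(show Commute a b from mul_comm' a b).mul_pow, ha, hb, mul_one]
  one_mem' := one_pow d
  inv_mem' := by
    intro a ha
    simp only [Set.mem_setOf_eq] at ha ⊢
    rw [inv_pow, ha, inv_one]

theorem mem_powSubgroup (d : ℕ) (h : Gal(L/E)) : h ∈ powSubgroup E L d ↔ h ^ d = 1 := Iff.rfl

/-- The number of elements of order `d`. -/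
noncomputable def ordCount (d : ℕ) : ℕ := Nat.card {h : Gal(L/E) // orderOf h = d}

theorem card_powSubgroup {d : ℕ} (hd : 0 < d) :
    Nat.card (powSubgroup E L d) = ∑ d' ∈ d.divisors, ordCount E L d' := by
  classical
  haveI : Fintype Gal(L/E) := Fintype.ofFinite _
  have h1 : Nat.card (powSubgroup E L d)
      = (Finset.univ.filter fun h : Gal(L/E) => h ^ d = 1).card := by
    rw [Nat.card_eq_fintype_card, ← Fintype.card_subtype]
    exact Fintype.card_congr (Equiv.refl _)
  have h2 : ∀ d', ordCount E L d'
      = (Finset.univ.filter fun h : Gal(L/E) => orderOf h = d').card := by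
    intro d'
    rw [ordCount, Nat.card_eq_fintype_card, ← Fintype.card_subtype]
  rw [h1, Finset.card_eq_sum_card_fiberwise (f := fun h : Gal(L/E) => orderOf h)
    (t := d.divisors)]
  · refine Finset.sum_congr rfl fun d' hd' => ?_
    rw [h2 d', Finset.filter_filter]
    congr 1
    ext h
    simp only [Finset.mem_filter, Finset.mem_univ, true_and]
    constructor
    · exact fun h3 => h3.2
    · intro h3
      refine ⟨?_, h3⟩
      rw [← orderOf_dvd_iff_pow_eq_one, h3]
      exact Nat.dvd_of_mem_divisors hd'
  · intro h hh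
    simp only [Finset.coe_filter, Finset.mem_univ, true_and, Set.mem_setOf_eq] at hh
    simp only [Finset.mem_coe, Nat.mem_divisors]
    exact ⟨orderOf_dvd_of_pow_eq_one hh, hd.ne'⟩

theorem powSet_eq_fixSet (d : ℕ) :
    powSet E L d = fixSet E (IntermediateField.fixedField (powSubgroup E L d)) L := by
  ext v
  simp only [powSet, fixSet, Set.mem_setOf_eq]
  refine and_congr_right fun _ => ?_
  have hfs := IntermediateField.fixingSubgroup_fixedField (powSubgroup E L d)
  have h1 : frob E L v.asIdeal ^ d = 1 ↔ frob E L v.asIdeal ∈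
      (IntermediateField.fixedField (powSubgroup E L d)).fixingSubgroup := by
    rw [hfs, mem_powSubgroup]
  rw [h1, IntermediateField.mem_fixingSubgroup_iff]
  constructor
  · intro h x
    exact h x x.2
  · intro h x hx
    exact h ⟨x, hx⟩

theorem finrank_fixedField_powSubgroup (d : ℕ) :
    Module.finrank E (IntermediateField.fixedField (powSubgroup E L d))
      * Nat.card (powSubgroup E L d) = Nat.card Gal(L/E) := by
  rw [IntermediateField.finrank_eq_fixingSubgroup_index,
    IntermediateField.fixingSubgroup_fixedField, mul_comm, Subgroup.card_mul_index]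

theorem bddNear_powSet {d : ℕ} (hd : 0 < d) :
    BddNear (fun s => primeSum E (powSet E L d) s +
      ((∑ d' ∈ d.divisors, ordCount E L d' : ℕ) : ℝ) / (Nat.card Gal(L/E) : ℝ)
        * Real.log (s - 1)) := by
  have h1 := bddNear_split E (IntermediateField.fixedField (powSubgroup E L d)) L
  rw [← powSet_eq_fixSet] at h1
  have h2 := finrank_fixedField_powSubgroup E L d
  rw [card_powSubgroup E L hd] at h2
  have hpos : 0 < Module.finrank E (IntermediateField.fixedField (powSubgroup E L d)) :=
    Module.finrank_pos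
  have hn : 0 < Nat.card Gal(L/E) := Nat.card_pos
  refine h1.congr fun s _ => ?_
  have h3 : (1 : ℝ) / (Module.finrank E (IntermediateField.fixedField (powSubgroup E L d)) : ℝ)
      = ((∑ d' ∈ d.divisors, ordCount E L d' : ℕ) : ℝ) / (Nat.card Gal(L/E) : ℝ) := by
    have hm : (0 : ℝ) < Module.finrank E (IntermediateField.fixedField (powSubgroup E L d)) := by
      exact_mod_cast hpos
    have hn' : (0 : ℝ) < Nat.card Gal(L/E) := by exact_mod_cast hn
    have h2' : (Module.finrank E (IntermediateField.fixedField (powSubgroup E L d)) : ℝ)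
        * ((∑ d' ∈ d.divisors, ordCount E L d' : ℕ) : ℝ) = (Nat.card Gal(L/E) : ℝ) := by
      exact_mod_cast h2
    rw [div_eq_div_iff hm.ne' hn'.ne']
    linarith
  rw [h3]

theorem powSet_eq_biUnion {d : ℕ} (hd : 0 < d) :
    powSet E L d = ⋃ d' ∈ d.divisors, ordSet E L d' := by
  ext v
  simp only [powSet, ordSet, Set.mem_setOf_eq, Set.mem_iUnion, exists_prop, Nat.mem_divisors]
  constructor
  · rintro ⟨h1, h2⟩
    exact ⟨orderOf (frob E L v.asIdeal), ⟨orderOf_dvd_of_pow_eq_one h2, hd.ne'⟩, h1, rfl⟩
  · rintro ⟨d', ⟨h1, _⟩, h2, h3⟩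
    refine ⟨h2, ?_⟩
    rw [← orderOf_dvd_iff_pow_eq_one, h3]
    exact h1

theorem primeSum_powSet {d : ℕ} (hd : 0 < d) {s : ℝ} (hs : 1 < s) :
    primeSum E (powSet E L d) s = ∑ d' ∈ d.divisors, primeSum E (ordSet E L d') s := by
  rw [powSet_eq_biUnion E L hd, primeSum_biUnion _ _ _ hs]
  intro i _ j _ hij
  rw [Set.disjoint_left]
  intro v hv hv'
  exact hij (hv.2.symm.trans hv'.2)

/-- **Density of the primes with Frobenius of given order.** -/
theorem bddNear_ordSet (d : ℕ) (hd : 0 < d) :
    BddNear (fun s => primeSum E (ordSet E L d) s +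
      (ordCount E L d : ℝ) / (Nat.card Gal(L/E) : ℝ) * Real.log (s - 1)) := by
  induction d using Nat.strong_induction_on with
  | _ d ih =>
    have h1 := bddNear_powSet E L hd
    have h2 : BddNear (fun s => ∑ d' ∈ d.properDivisors, (primeSum E (ordSet E L d') s +
        (ordCount E L d' : ℝ) / (Nat.card Gal(L/E) : ℝ) * Real.log (s - 1))) := by
      refine BddNear.sum _ fun d' hd' => ?_
      rw [Nat.mem_properDivisors] at hd'
      exact ih d' hd'.2 (Nat.pos_of_dvd_of_pos hd'.1 hd)
    refine (h1.sub h2).congr fun s hs => ?_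
    rw [primeSum_powSet E L hd hs, Finset.sum_add_distrib, ← Finset.sum_mul, ← Finset.sum_div,
      sum_divisors_eq _ hd.ne', sum_divisors_eq _ hd.ne']
    push_cast
    ring

/-- **Existence of primes with Frobenius of prescribed order**, outside any set of primes with
bounded prime sum. -/
theorem exists_orderOf_frob_eq (h₀ : Gal(L/E)) (Y : Set (HeightOneSpectrum (𝓞 E)))
    (hY : BddNear (primeSum E Y)) :
    ∃ v : HeightOneSpectrum (𝓞 E), v ∉ Y ∧ UnramifiedAt E L v.asIdeal ∧
      orderOf (frob E L v.asIdeal) = orderOf h₀ := by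
  by_contra hcon
  have hsub : ordSet E L (orderOf h₀) ⊆ Y := by
    intro v hv
    by_contra hvY
    exact hcon ⟨v, hvY, hv.1, hv.2⟩
  have hd : 0 < orderOf h₀ := orderOf_pos h₀
  have h1 : BddNear (primeSum E (ordSet E L (orderOf h₀))) :=
    hY.of_nonneg_of_le (fun s _ => primeSum_nonneg _ s) (fun s hs => primeSum_mono hsub hs)
  have h2 := (bddNear_ordSet E L (orderOf h₀) hd).sub h1
  have h3 : BddNear (fun s => (ordCount E L (orderOf h₀) : ℝ) / (Nat.card Gal(L/E) : ℝ)
      * Real.log (s - 1)) := h2.congr fun s _ => by ring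
  refine not_bddNear_mul_log ?_ h3
  have hn : 0 < Nat.card Gal(L/E) := Nat.card_pos
  have hc : 0 < ordCount E L (orderOf h₀) := by
    rw [ordCount]
    haveI : Nonempty {h : Gal(L/E) // orderOf h = orderOf h₀} := ⟨⟨h₀, rfl⟩⟩
    exact Nat.card_pos
  have hn' : (0 : ℝ) < Nat.card Gal(L/E) := by exact_mod_cast hn
  have hc' : (0 : ℝ) < ordCount E L (orderOf h₀) := by exact_mod_cast hc
  exact (div_pos hc' hn').ne'

end Abelian

end Fermat.Agent.N4.FrobDensity
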