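/-
N4 / FrobDensity (helper28): the **Frobenius density theorem** (existence form), number field
version.

`exists_frob_zpowers_eq` : let `L/ℚ` be a finite Galois extension, `g ∈ Gal(L/ℚ)` and `T` a finite
set of natural numbers.  Then there are a prime number `l ∉ T`, a prime `𝔓` of `𝓞 L` above `l`
with trivial inertia group and an arithmetic Frobenius `σ ∈ Gal(L/ℚ)` at `𝔓` which generates the
same cyclic subgroup as `g` (equivalently `σ = g ^ j` with `j` prime to the order of `g`).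

Proof (Deuring's reduction): `E := L^{⟨g⟩}`; `L/E` is cyclic, so by `exists_orderOf_frob_eq` there
is a prime `v` of `E` of absolute degree one, unramified, whose Frobenius has the order of `g`.
-/
import Mathlib
import Fermat.Agent.N4.FrobDensity.OrderDensity

set_option autoImplicit false
set_option linter.deprecated false
set_option linter.unusedSectionVars false
set_option linter.style.haveILetI false

open IsDedekindDomain NumberField Ideal

namespace Fermat.Agent.N4.FrobDensity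

open Fermat.Agent.S14.ArtinMap Fermat.Agent.S14.Zeta
open scoped Pointwise

/-! ### Primes of absolute degree one -/

section DegreeOne

theorem absNorm_prime_of_rat (u : HeightOneSpectrum (𝓞 ℚ)) : (absNorm u.asIdeal).Prime := by
  haveI := u.isMaximal
  obtain ⟨p, n, hn, hpu, hp, hN⟩ := Ideal.exists_prime_and_absNorm_eq_pow u.asIdeal
  have h1 : absNorm u.asIdeal ∣ absNorm (span {(p : 𝓞 ℚ)}) :=
    Ideal.absNorm_dvd_absNorm_of_le ((span_singleton_le_iff_mem _).mpr hpu)
  rw [Ideal.absNorm_span_natCast, RingOfIntegers.rank, Module.finrank_self, pow_one, hN] at h1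
  have h2 : n ≤ 1 := by
    have h3 : p ^ n ∣ p ^ 1 := by simpa using h1
    exact (Nat.pow_dvd_pow_iff_le_right hp.one_lt).mp h3
  have h4 : n = 1 := by omega
  rw [hN, h4, pow_one]
  exact hp

variable (E : Type*) [Field E] [NumberField E]

/-- The primes of `E` whose norm is not a prime number have bounded prime sum. -/
theorem bddNear_primeSum_not_prime :
    BddNear (primeSum E {v | ¬ (absNorm v.asIdeal).Prime}) := by
  refine BddNear.of_forall (C := Module.finrank ℚ E * zetaR ℚ 2) fun s hs => ?_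
  rw [abs_of_nonneg (primeSum_nonneg _ s)]
  refine primeSum_sq_le (F := ℚ) (F' := E) _ (fun v hv => ?_) hs
  rcases absNorm_eq_or_sq_le (F := ℚ) v with heq | hsq
  · exact absurd (heq ▸ absNorm_prime_of_rat (v.under (𝓞 ℚ))) hv
  · exact hsq

variable {E}

theorem BddNear.primeSum_union {A B : Set (HeightOneSpectrum (𝓞 E))}
    (hA : BddNear (primeSum E A)) (hB : BddNear (primeSum E B)) :
    BddNear (primeSum E (A ∪ B)) :=
  (hA.add hB).of_nonneg_of_le (fun s _ => primeSum_nonneg _ s)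
    (fun _ hs => primeSum_le_add le_rfl hs)

theorem finite_absNorm_mem (T : Finset ℕ) :
    {v : HeightOneSpectrum (𝓞 E) | absNorm v.asIdeal ∈ T}.Finite := by
  have h1 : {I : Ideal (𝓞 E) | absNorm I ∈ T}.Finite := by
    have : {I : Ideal (𝓞 E) | absNorm I ∈ T} = ⋃ t ∈ T, {I : Ideal (𝓞 E) | absNorm I = t} := by
      ext I
      simp
    rw [this]
    exact Set.Finite.biUnion T.finite_toSet fun t _ => Ideal.finite_setOfPred_absNorm_eq t
  exact Set.Finite.preimage (f := fun v : HeightOneSpectrum (𝓞 E) => v.asIdeal)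
    (asIdeal_injective.injOn) h1

end DegreeOne

/-! ### The main theorem -/

section Main

variable (L : Type*) [Field L] [NumberField L] [IsGalois ℚ L]

/-- If the norm of the prime `𝔓 ∩ 𝓞 E` is a prime number `l` then `𝔓 ∩ ℤ = (l)`. -/
theorem under_int_eq_span {E : Type*} [Field E] [NumberField E] [Algebra E L]
    (v : HeightOneSpectrum (𝓞 E)) (hl : (absNorm v.asIdeal).Prime) (𝔓 : Ideal (𝓞 L))
    [𝔓.IsPrime] (h𝔓 : 𝔓.under (𝓞 E) = v.asIdeal) :
    𝔓.under ℤ = span {((absNorm v.asIdeal : ℕ) : ℤ)} := by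
  have h1 : ((absNorm v.asIdeal : ℕ) : 𝓞 E) ∈ v.asIdeal := Ideal.absNorm_mem v.asIdeal
  have h2 : ((absNorm v.asIdeal : ℕ) : ℤ) ∈ 𝔓.under ℤ := by
    rw [Ideal.under_def, Ideal.mem_comap]
    have h3 : algebraMap (𝓞 E) (𝓞 L) ((absNorm v.asIdeal : ℕ) : 𝓞 E) ∈ 𝔓 := by
      have h4 : ((absNorm v.asIdeal : ℕ) : 𝓞 E) ∈ 𝔓.under (𝓞 E) := h𝔓 ▸ h1
      exact h4
    simpa using h3
  have hmax : (span {((absNorm v.asIdeal : ℕ) : ℤ)}).IsMaximal :=
    haveI : Fact (absNorm v.asIdeal).Prime := ⟨hl⟩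
    Int.ideal_span_isMaximal_of_prime (absNorm v.asIdeal)
  have hne : 𝔓.under ℤ ≠ ⊤ := (Ideal.IsPrime.under ℤ 𝔓).ne_top
  exact (hmax.eq_of_le hne ((span_singleton_le_iff_mem _).mpr h2)).symm

/-- **Frobenius density theorem, existence form.**  For a finite Galois extension `L/ℚ`, an element
`g` of its Galois group and a finite set `T` of numbers, there is a prime `l ∉ T`, a prime `𝔓` of
`L` above `l` with trivial inertia group, and an arithmetic Frobenius `σ` at `𝔓` generating the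
same cyclic subgroup as `g`. -/
theorem exists_frob_zpowers_eq (g : Gal(L/ℚ)) (T : Finset ℕ) :
    ∃ (l : ℕ) (𝔓 : Ideal (𝓞 L)) (σ : Gal(L/ℚ)), l.Prime ∧ l ∉ T ∧ 𝔓.IsPrime ∧
      𝔓.under ℤ = span {(l : ℤ)} ∧ 𝔓.inertia Gal(L/ℚ) = ⊥ ∧ IsArithFrobAt ℤ σ 𝔓 ∧
      Subgroup.zpowers σ = Subgroup.zpowers g := by
  classical
  set H : Subgroup Gal(L/ℚ) := Subgroup.zpowers g with hH
  set E : IntermediateField ℚ L := IntermediateField.fixedField H with hE
  have hfs : E.fixingSubgroup = H := IntermediateField.fixingSubgroup_fixedField H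
  let e : E.fixingSubgroup ≃* Gal(L/E) := IntermediateField.fixingSubgroupEquiv E
  have hmemH : ∀ a : Gal(L/E), ((e.symm a : E.fixingSubgroup) : Gal(L/ℚ)) ∈ Subgroup.zpowers g :=
    fun a => by
      have h1 : ∀ τ : Gal(L/ℚ), τ ∈ E.fixingSubgroup → τ ∈ Subgroup.zpowers g := by
        intro τ hτ
        rw [hfs] at hτ
        exact hτ
      exact h1 _ (e.symm a).2
  haveI : IsMulCommutative Gal(L/E) := by
    refine ⟨⟨fun a b => ?_⟩⟩
    apply e.symm.injective
    rw [map_mul, map_mul]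
    apply Subtype.ext
    obtain ⟨i, hi⟩ := Subgroup.mem_zpowers_iff.mp (hmemH a)
    obtain ⟨j, hj⟩ := Subgroup.mem_zpowers_iff.mp (hmemH b)
    rw [Subgroup.coe_mul, Subgroup.coe_mul, ← hi, ← hj, ← zpow_add, ← zpow_add, add_comm]
  have hg : g ∈ E.fixingSubgroup := by
    rw [hfs]
    exact Subgroup.mem_zpowers g
  set h₀ : Gal(L/E) := e ⟨g, hg⟩ with hh₀
  have hord₀ : orderOf h₀ = orderOf g := by
    rw [hh₀, MulEquiv.orderOf_eq, Subgroup.orderOf_mk]
  have hY : BddNear (primeSum E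
      (({v : HeightOneSpectrum (𝓞 E) | ¬ (absNorm v.asIdeal).Prime} ∪
        {v : HeightOneSpectrum (𝓞 E) | absNorm v.asIdeal ∈ T}) ∪
        ((fun w : HeightOneSpectrum (𝓞 L) => w.under (𝓞 E)) ''
          {w : HeightOneSpectrum (𝓞 L) | w.asIdeal.inertia Gal(L/ℚ) ≠ ⊥}))) :=
    ((bddNear_primeSum_not_prime E).primeSum_union
      (bddNear_primeSum_of_finite (finite_absNorm_mem T))).primeSum_union
      (bddNear_primeSum_of_finite ((finite_ramified ℚ L).image _))
  obtain ⟨v, hvY, hvunr, hord⟩ := exists_orderOf_frob_eq E L h₀ _ hY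
  have hl : (absNorm v.asIdeal).Prime := by
    by_contra h
    exact hvY (Or.inl (Or.inl h))
  have hlT : absNorm v.asIdeal ∉ T := fun h => hvY (Or.inl (Or.inr h))
  obtain ⟨𝔓, h𝔓p, h𝔓0, h𝔓v⟩ := exists_prime_over (K := E) (L := L) v
  have hin : 𝔓.inertia Gal(L/ℚ) = ⊥ := by
    by_contra h
    exact hvY (Or.inr ⟨⟨𝔓, h𝔓p, h𝔓0⟩, h, HeightOneSpectrum.ext h𝔓v⟩)
  haveI : 𝔓.LiesOver v.asIdeal := ⟨h𝔓v.symm⟩
  haveI := v.isPrime
  set φ : Gal(L/E) := frob E L v.asIdeal with hφ
  have hpow : IsPowFrobAt φ (absNorm v.asIdeal) 𝔓 := isPowFrobAt_frob v.ne_bot 𝔓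
  set σ : Gal(L/ℚ) := ((e.symm φ : E.fixingSubgroup) : Gal(L/ℚ)) with hσ
  have hunder := under_int_eq_span L v hl 𝔓 h𝔓v
  refine ⟨absNorm v.asIdeal, 𝔓, σ, hl, hlT, h𝔓p, hunder, hin, ?_, ?_⟩
  · intro x
    have h1 := hpow x
    change σ • x - x ^ Nat.card (ℤ ⧸ 𝔓.under ℤ) ∈ 𝔓
    rw [hunder, Int.card_ideal_quot]
    have h2 : σ • x = φ • x := by
      apply RingOfIntegers.ext
      rfl
    rw [h2]
    exact h1
  · have hσH : σ ∈ Subgroup.zpowers g := hmemH φ
    have hordσ : orderOf σ = orderOf g := by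
      rw [hσ, Subgroup.orderOf_coe, MulEquiv.orderOf_eq, hord, hord₀]
    refine Subgroup.eq_of_le_of_card_ge (Subgroup.zpowers_le_of_mem hσH) ?_
    rw [Nat.card_zpowers, Nat.card_zpowers, hordσ]

end Main

end Fermat.Agent.N4.FrobDensity
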