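/-
N4 / FrobDensity (helper28): the Frobenius density theorem in the language of the prelude
(valuation subrings of `ℚ̄`, `ValuationSubring.IsFrobeniusAt`).

* `exists_isFrobeniusAt_of_mem_nonunits` : EVERY valuation subring of `ℚ̄` above `p` has a Frobenius
  element (the proof of `S54.exists_isFrobeniusAt` works for any `A`);
* `exists_valuationSubring_over` : a valuation subring of `ℚ̄` above a given prime of a number
  field `L ⊂ ℚ̄`;
* `exists_isFrobeniusAt_zpowers_eq` : for `L ⊂ ℚ̄` finite Galois over `ℚ`, `g ∈ Gal(ℚ̄/ℚ)` and a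
  finite set `T`: there are a prime `l ∉ T`, a valuation subring `A` over `l` and a Frobenius `φ`
  at `A` such that `φ|_L` and `g|_L` generate the same subgroup of `Gal(L/ℚ)`.
-/
import Mathlib
import Fermat.Agent.S54.Frobenius
import Fermat.Agent.N4.FrobDensity.Main

set_option autoImplicit false
set_option linter.deprecated false
set_option linter.unusedSectionVars false
set_option linter.style.haveILetI false

open IsDedekindDomain NumberField Ideal

namespace Fermat.Agent.N4.FrobDensity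

open Fermat.Agent.S54
open scoped Pointwise

local notation "Qbar" => AlgebraicClosure ℚ
local notation "Γ" => (AlgebraicClosure ℚ ≃ₐ[ℚ] AlgebraicClosure ℚ)

local instance isAlgebraicQbar_FD : Algebra.IsAlgebraic ℚ (AlgebraicClosure ℚ) :=
  AlgebraicClosure.isAlgebraic ℚ
local instance isAlgClosureQbar_FD : IsAlgClosure ℚ (AlgebraicClosure ℚ) :=
  ⟨inferInstance, inferInstance⟩
local instance normalQbar_FD : Normal ℚ (AlgebraicClosure ℚ) :=
  IsAlgClosure.normal ℚ (AlgebraicClosure ℚ)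

/-- **Every** valuation subring of `ℚ̄` above `p` has a Frobenius element (same proof as
`S54.exists_isFrobeniusAt`). -/
theorem exists_isFrobeniusAt_of_mem_nonunits (A : ValuationSubring Qbar) (p : ℕ) (hp : p.Prime)
    (hpA : (p : Qbar) ∈ A.nonunits) : ∃ σ : Γ, A.IsFrobeniusAt σ p := by
  -- the ring of all algebraic integers and its prime below the maximal ideal of `A`
  have hBA : ∀ b : integralClosure ℤ Qbar, (b : Qbar) ∈ A :=
    fun b => mem_valuationSubring_of_isIntegral_int A b.2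
  let ι : integralClosure ℤ Qbar →+* A :=
    ((integralClosure ℤ Qbar).val : integralClosure ℤ Qbar →+* Qbar).codRestrict A hBA
  let Q : Ideal (integralClosure ℤ Qbar) := (IsLocalRing.maximalIdeal A).comap ι
  have hQmem : ∀ b : integralClosure ℤ Qbar, b ∈ Q ↔ (b : Qbar) ∈ A.nonunits := by
    intro b
    rw [Ideal.mem_comap, ← ValuationSubring.coe_mem_nonunits_iff]
    rfl
  have hQprime : Q.IsPrime := Ideal.comap_isPrime ι _
  let P : Ideal ℤ := Ideal.span {(p : ℤ)}
  have hPmax : P.IsMaximal :=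
    PrincipalIdealRing.isMaximal_of_irreducible
      (Nat.prime_iff_prime_int.mp hp).irreducible
  have hQP : Q.LiesOver P := by
    refine ⟨?_⟩
    refine hPmax.eq_of_le ?_ ?_
    · intro htop
      have h1 : (1 : ℤ) ∈ Q.under ℤ := htop ▸ Submodule.mem_top
      rw [Ideal.under_def, Ideal.mem_comap, map_one, hQmem] at h1
      have := A.mem_nonunits_iff.mp h1
      simp at this
    · rw [Ideal.span_le, Set.singleton_subset_iff, SetLike.mem_coe, Ideal.under_def,
        Ideal.mem_comap, hQmem]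
      simpa using hpA
  -- the quotient has characteristic `p` and a bijective Frobenius
  have : Fact p.Prime := ⟨hp⟩
  have hchar : CharP (integralClosure ℤ Qbar ⧸ Q) p := by
    rw [CharP.charP_iff_prime_eq_zero hp]
    have : ((p : integralClosure ℤ Qbar) : integralClosure ℤ Qbar ⧸ Q) = 0 := by
      rw [Ideal.Quotient.eq_zero_iff_mem, hQmem]
      simpa using hpA
    simpa using this
  have hfrob_bij : Function.Bijective (frobenius (integralClosure ℤ Qbar ⧸ Q) p) := by
    refine ⟨frobenius_inj _ p, fun y => ?_⟩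
    obtain ⟨b, rfl⟩ := Ideal.Quotient.mk_surjective y
    obtain ⟨z, hz⟩ := IsAlgClosed.exists_pow_nat_eq (b : Qbar) hp.pos
    have hzint : IsIntegral ℤ z := IsIntegral.of_pow hp.pos (hz ▸ b.2)
    refine ⟨Ideal.Quotient.mk Q ⟨z, hzint⟩, ?_⟩
    rw [frobenius_def, ← map_pow]
    congr 1
    exact Subtype.ext hz
  let φ : (integralClosure ℤ Qbar ⧸ Q) ≃ₐ[ℤ ⧸ P] (integralClosure ℤ Qbar ⧸ Q) :=
    AlgEquiv.ofRingEquiv (f := RingEquiv.ofBijective (frobenius (integralClosure ℤ Qbar ⧸ Q) p) hfrob_bij)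
      (by
        intro x
        obtain ⟨n, rfl⟩ := Ideal.Quotient.mk_surjective x
        rw [Ideal.Quotient.algebraMap_mk_of_liesOver]
        simp)
  -- apply the profinite surjectivity theorem
  let _ : TopologicalSpace (integralClosure ℤ Qbar) := ⊥
  have : DiscreteTopology (integralClosure ℤ Qbar) := ⟨rfl⟩
  have := continuousSMul_integralClosure_Qbar
  have := isInvariant_int_integralClosure_Qbar
  obtain ⟨⟨σ, hσQ⟩, hσφ⟩ := Ideal.Quotient.stabilizerHom_surjective_of_profinite (G := Γ) P Q φ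
  -- translate
  have hfrobB : ∀ b : integralClosure ℤ Qbar, σ • b - b ^ p ∈ Q := by
    intro b
    have h1 := DFunLike.congr_fun hσφ (Ideal.Quotient.mk Q b)
    rw [Ideal.Quotient.stabilizerHom_apply] at h1
    have h2 : φ (Ideal.Quotient.mk Q b) = Ideal.Quotient.mk Q (b ^ p) := by
      simp [φ, frobenius_def]
    rw [h2] at h1
    exact Ideal.Quotient.eq.mp h1
  have hstab : ∀ b : integralClosure ℤ Qbar, b ∈ Q ↔ σ • b ∈ Q := by
    intro b
    have hσQ' : σ • Q = Q := hσQ
    conv_rhs => rw [← hσQ']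
    exact Ideal.smul_mem_pointwise_smul_iff.symm
  have hfrob : ∀ b : Qbar, IsIntegral ℤ b → σ b - b ^ p ∈ A.nonunits := by
    intro b hb
    have := (hQmem _).mp (hfrobB ⟨b, hb⟩)
    exact this
  have hσA : ∀ b : Qbar, IsIntegral ℤ b → (b ∈ A.nonunits ↔ σ b ∈ A.nonunits) := by
    intro b hb
    have h1 := hstab ⟨b, hb⟩
    rw [hQmem, hQmem] at h1
    exact h1
  have hσD : σ ∈ A.decompositionSubgroup ℚ :=
    mem_decompositionSubgroup_of_forall_integral A hp hpA isAlgebraic_int_Qbar σ hσA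
  exact ⟨σ, isFrobeniusAt_of_forall_integral A hp hpA isAlgebraic_int_Qbar σ hσD hfrob⟩

/-- A Frobenius element at `A` acts as `a ↦ a ^ q` modulo the maximal ideal of `A`. -/
theorem sub_pow_mem_nonunits_of_isFrobeniusAt {K M : Type*} [Field K] [Field M] [Algebra K M]
    {A : ValuationSubring M} {φ : M ≃ₐ[K] M} {q : ℕ} (h : A.IsFrobeniusAt φ q) {a : M}
    (ha : a ∈ A) : φ a - a ^ q ∈ A.nonunits := by
  obtain ⟨hφ, hres⟩ := h
  have h1 := hres (IsLocalRing.residue A ⟨a, ha⟩)
  rw [← IsLocalRing.ResidueField.residue_smul, ← map_pow, ← sub_eq_zero, ← map_sub,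
    IsLocalRing.residue_eq_zero_iff, ← ValuationSubring.coe_mem_nonunits_iff] at h1
  exact h1

section Over

variable (L : IntermediateField ℚ Qbar) [NumberField L]

/-- A valuation subring of `ℚ̄` lying over a given nonzero prime of `𝓞 L`. -/
theorem exists_valuationSubring_over (𝔓 : Ideal (𝓞 L)) [h𝔓p : 𝔓.IsPrime] (h𝔓 : 𝔓 ≠ ⊥) :
    ∃ A : ValuationSubring Qbar, ∀ x : 𝓞 L, (((x : L) : Qbar) ∈ A.nonunits ↔ x ∈ 𝔓) := by
  let f : 𝓞 L →+* Qbar := (algebraMap L Qbar).comp (algebraMap (𝓞 L) L)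
  have hf : Function.Injective f :=
    (algebraMap L Qbar).injective.comp RingOfIntegers.coe_injective
  let g : 𝓞 L →+* f.range := f.rangeRestrict
  have hg : Function.Surjective g := f.rangeRestrict_surjective
  have hI : 𝔓.map g ≠ ⊤ := by
    intro htop
    have h1 : (1 : f.range) ∈ 𝔓.map g := htop ▸ Submodule.mem_top
    obtain ⟨x, hx, hx1⟩ := (Ideal.mem_map_iff_of_surjective g hg).mp h1
    have h2 : f x = f 1 := by
      have := congrArg Subtype.val hx1
      simpa [g] using this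
    rw [hf h2] at hx
    exact h𝔓p.ne_top ((Ideal.eq_top_iff_one _).mpr hx)
  obtain ⟨A, -, hIA⟩ := Ideal.image_subset_nonunits_valuationSubring (𝔓.map g) hI
  have hmemA : ∀ x : 𝓞 L, f x ∈ A := fun x =>
    mem_valuationSubring_of_isIntegral_int A
      ((RingOfIntegers.isIntegral_coe x).map ((algebraMap L Qbar).toIntAlgHom))
  let ι : 𝓞 L →+* A := f.codRestrict A hmemA
  let 𝔔 : Ideal (𝓞 L) := (IsLocalRing.maximalIdeal A).comap ι
  have h𝔔mem : ∀ x : 𝓞 L, x ∈ 𝔔 ↔ f x ∈ A.nonunits := by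
    intro x
    rw [Ideal.mem_comap, ← ValuationSubring.coe_mem_nonunits_iff]
    rfl
  have h𝔔p : 𝔔.IsPrime := Ideal.comap_isPrime ι _
  have hle : 𝔓 ≤ 𝔔 := by
    intro x hx
    rw [h𝔔mem]
    exact hIA ⟨g x, Ideal.mem_map_of_mem g hx, rfl⟩
  have hmax : 𝔓.IsMaximal := h𝔓p.isMaximal h𝔓
  have heq : 𝔓 = 𝔔 := hmax.eq_of_le h𝔔p.ne_top hle
  refine ⟨A, fun x => ?_⟩
  rw [heq, h𝔔mem]
  rfl

end Over

section MainQbar

variable (L : IntermediateField ℚ Qbar) [FiniteDimensional ℚ L] [Normal ℚ L]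

/-- **Frobenius density theorem, prelude language.**  For a finite Galois `L ⊂ ℚ̄` over `ℚ`, an
element `g` of the absolute Galois group and a finite set `T` there are a prime `l ∉ T`, a valuation
subring `A` of `ℚ̄` above `l` and a Frobenius element `φ` at `A` such that `φ|_L` and `g|_L`
generate the same (cyclic) subgroup of `Gal(L/ℚ)`.  Moreover `l` is unramified in `L` at the prime
below `A`: any two Frobenius elements at `A` have the same restriction to `L`. -/
theorem exists_isFrobeniusAt_zpowers_eq (g : Γ) (T : Finset ℕ) :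
    ∃ l : ℕ, l.Prime ∧ l ∉ T ∧ ∃ A : ValuationSubring Qbar, A.LiesOverPrime l ∧
      ∃ φ : Γ, A.IsFrobeniusAt φ l ∧
        Subgroup.zpowers (AlgEquiv.restrictNormalHom L φ)
          = Subgroup.zpowers (AlgEquiv.restrictNormalHom L g) ∧
        ∀ φ' : Γ, A.IsFrobeniusAt φ' l →
          AlgEquiv.restrictNormalHom L φ' = AlgEquiv.restrictNormalHom L φ := by
  haveI : NumberField L := ⟨⟩
  haveI : IsGalois ℚ L := ⟨⟩
  obtain ⟨l, 𝔓, σ, hl, hlT, h𝔓p, hunder, hin, hfrob, hz⟩ :=
    exists_frob_zpowers_eq L (AlgEquiv.restrictNormalHom L g) T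
  have hlmem : ((l : ℤ) : 𝓞 L) ∈ 𝔓 := by
    have h1 : (l : ℤ) ∈ 𝔓.under ℤ := hunder ▸ Ideal.mem_span_singleton_self _
    rw [Ideal.under_def, Ideal.mem_comap] at h1
    simpa using h1
  have h𝔓0 : 𝔓 ≠ ⊥ := by
    intro h
    rw [h, Ideal.mem_bot] at hlmem
    have h2 : ((l : ℤ) : 𝓞 L) = ((0 : ℤ) : 𝓞 L) := by simpa using hlmem
    have h3 := (Int.cast_injective (α := 𝓞 L)) h2
    exact hl.ne_zero (by exact_mod_cast h3)
  obtain ⟨A, hA⟩ := exists_valuationSubring_over L 𝔓 h𝔓0
  have hlA : (l : Qbar) ∈ A.nonunits := by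
    have h1 := (hA _).mpr hlmem
    simpa using h1
  -- every Frobenius at `A` restricts to the Frobenius `σ` at `𝔓`
  have hres : ∀ φ : Γ, A.IsFrobeniusAt φ l → AlgEquiv.restrictNormalHom L φ = σ := by
    intro φ hφ
    have hfrob' : IsArithFrobAt ℤ (AlgEquiv.restrictNormalHom L φ) 𝔓 := by
      intro x
      change AlgEquiv.restrictNormalHom L φ • x - x ^ Nat.card (ℤ ⧸ 𝔓.under ℤ) ∈ 𝔓
      rw [hunder, Int.card_ideal_quot, ← hA]
      have hxA : (((x : L) : Qbar)) ∈ A :=
        mem_valuationSubring_of_isIntegral_int A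
          ((RingOfIntegers.isIntegral_coe x).map ((algebraMap L Qbar).toIntAlgHom))
      have h1 := sub_pow_mem_nonunits_of_isFrobeniusAt hφ hxA
      let f : 𝓞 L →+* Qbar := (algebraMap L Qbar).comp (algebraMap (𝓞 L) L)
      have h3 : f (AlgEquiv.restrictNormalHom L φ • x) = φ (f x) :=
        AlgEquiv.restrictNormal_commutes φ L (x : L)
      have h2 : f (AlgEquiv.restrictNormalHom L φ • x - x ^ l) = φ (f x) - f x ^ l := by
        rw [map_sub, map_pow, h3]
      change f (AlgEquiv.restrictNormalHom L φ • x - x ^ l) ∈ A.nonunits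
      rw [h2]
      exact h1
    have h1 := hfrob'.mul_inv_mem_inertia hfrob
    rw [hin, Subgroup.mem_bot] at h1
    exact mul_inv_eq_one.mp h1
  obtain ⟨φ, hφ⟩ := exists_isFrobeniusAt_of_mem_nonunits A l hl hlA
  refine ⟨l, hl, hlT, A, hlA, φ, hφ, ?_, fun φ' hφ' => ?_⟩
  · rw [hres φ hφ]
    exact hz
  · rw [hres φ hφ, hres φ' hφ']

end MainQbar

end Fermat.Agent.N4.FrobDensity
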