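/-
N4 / FrobDensity (helper28): the Dickson argument and the passage
"quadratic relation for Frobenius elements ⇒ operator identity for ALL group elements".

* `dicksonSeq a b k` : `D_0 = 2, D_1 = a, D_{k+2} = a D_{k+1} - b D_k`;
* `pow_add_pow_eq_dicksonSeq` : if `x + y = a`, `x y = b` (commuting `x, y` in an algebra) then
  `x^k + y^k = D_k(a, b)`;
* `pow_add_smul_inv_pow` : if `F² - a F + b = 0` and `F` is invertible then
  `F^k + b^k F^{-k} = D_k(a, b)`;
* `exists_scalar_of_frobenius` : a representation `ρ` of `Gal(ℚ̄/ℚ)` and a character `χ`, both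
  factoring through `Gal(L/ℚ)` for a finite Galois `L`, such that every Frobenius element `φ` at
  every prime `l ∉ T` satisfies `ρ(φ)² - a ρ(φ) + χ(φ) = 0` for some scalar `a`; then
  `ρ(g) + χ(g) ρ(g)⁻¹` is a scalar for EVERY `g` (the hypothesis of the involution trick).
-/
import Mathlib
import Fermat.Agent.N4.FrobDensity.Qbar

set_option autoImplicit false
set_option linter.deprecated false
set_option linter.unusedSectionVars false
set_option linter.style.haveILetI false

namespace Fermat.Agent.N4.FrobDensity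

/-! ### Dickson numbers -/

section Dickson

variable {R : Type*} [CommRing R]

/-- `D_0 = 2`, `D_1 = a`, `D_{k+2} = a D_{k+1} - b D_k`. -/
def dicksonSeq (a b : R) : ℕ → R
  | 0 => 2
  | 1 => a
  | (k + 2) => a * dicksonSeq a b (k + 1) - b * dicksonSeq a b k

@[simp] theorem dicksonSeq_zero (a b : R) : dicksonSeq a b 0 = 2 := rfl

@[simp] theorem dicksonSeq_one (a b : R) : dicksonSeq a b 1 = a := rfl

theorem dicksonSeq_add_two (a b : R) (k : ℕ) :
    dicksonSeq a b (k + 2) = a * dicksonSeq a b (k + 1) - b * dicksonSeq a b k := rfl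

variable {S : Type*} [Ring S] [Algebra R S]

/-- Power sums of two commuting elements with sum `a` and product `b`. -/
theorem pow_add_pow_eq_dicksonSeq (a b : R) (x y : S) (hc : Commute x y)
    (hs : x + y = algebraMap R S a) (hp : x * y = algebraMap R S b) (k : ℕ) :
    x ^ k + y ^ k = algebraMap R S (dicksonSeq a b k) := by
  induction k using Nat.twoStepInduction with
  | zero =>
    rw [pow_zero, pow_zero, dicksonSeq_zero, one_add_one_eq_two]
    exact (map_ofNat (algebraMap R S) 2).symm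
  | one => simpa using hs
  | more k ih0 ih1 =>
    rw [dicksonSeq_add_two, map_sub, map_mul, map_mul, ← ih0, ← ih1, ← hs, ← hp]
    have h1 : y * x ^ (k + 1) = x ^ k * (x * y) := by
      rw [(hc.symm.pow_right (k + 1)).eq, pow_succ, mul_assoc]
    have h2 : x * y ^ (k + 1) = x * y * y ^ k := by
      rw [pow_succ', mul_assoc]
    have h3 : x * y * y ^ k = y ^ k * (x * y) := by
      have : Commute (x * y) (y ^ k) := (hc.mul_left (Commute.refl y)).pow_right k
      exact this.eq
    have h4 : x * y * x ^ k = x ^ k * (x * y) := by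
      have : Commute (x * y) (x ^ k) := ((Commute.refl x).mul_left hc.symm).pow_right k
      exact this.eq
    rw [add_mul, mul_add, mul_add, mul_add, h1, h2, h3, h4, pow_succ' x (k + 1),
      pow_succ' y (k + 1)]
    abel

/-- If `F² - a F + b = 0` and `F` is invertible then `F^k + b^k F^{-k} = D_k(a, b)`. -/
theorem pow_add_smul_inv_pow (a b : R) (F Finv : S) (h1 : F * Finv = 1) (h2 : Finv * F = 1)
    (hquad : F * F - a • F + b • (1 : S) = 0) (k : ℕ) :
    F ^ k + b ^ k • Finv ^ k = dicksonSeq a b k • (1 : S) := by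
  have hc : Commute F (b • Finv) := by
    rw [Commute, SemiconjBy, mul_smul_comm, smul_mul_assoc, h1, h2]
  have hs : F + b • Finv = algebraMap R S a := by
    have h3 : (F * F - a • F + b • (1 : S)) * Finv = 0 := by rw [hquad, zero_mul]
    rw [add_mul, sub_mul, mul_assoc, h1, mul_one, smul_mul_assoc, h1, smul_mul_assoc,
      one_mul] at h3
    rw [Algebra.algebraMap_eq_smul_one]
    have h4 : F + b • Finv = F - a • (1 : S) + b • Finv + a • (1 : S) := by abel
    rw [h4, h3, zero_add]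
  have hp : F * (b • Finv) = algebraMap R S b := by
    rw [mul_smul_comm, h1, Algebra.algebraMap_eq_smul_one]
  have h5 := pow_add_pow_eq_dicksonSeq a b F (b • Finv) hc hs hp k
  rw [smul_pow] at h5
  rw [h5, Algebra.algebraMap_eq_smul_one]

end Dickson

/-! ### From Frobenius elements to all group elements -/

section Galois

local notation "Qbar" => AlgebraicClosure ℚ
local notation "Γ" => (AlgebraicClosure ℚ ≃ₐ[ℚ] AlgebraicClosure ℚ)

local instance isAlgebraicQbar_FDD : Algebra.IsAlgebraic ℚ (AlgebraicClosure ℚ) :=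
  AlgebraicClosure.isAlgebraic ℚ
local instance isAlgClosureQbar_FDD : IsAlgClosure ℚ (AlgebraicClosure ℚ) :=
  ⟨inferInstance, inferInstance⟩
local instance normalQbar_FDD : Normal ℚ (AlgebraicClosure ℚ) :=
  IsAlgClosure.normal ℚ (AlgebraicClosure ℚ)

variable (L : IntermediateField ℚ Qbar) [FiniteDimensional ℚ L] [Normal ℚ L]

/-- Every `g` agrees on `L` with a power of a Frobenius element at a prime outside `T`. -/
theorem exists_isFrobeniusAt_pow_eq (g : Γ) (T : Finset ℕ) :
    ∃ l : ℕ, l.Prime ∧ l ∉ T ∧ ∃ A : ValuationSubring Qbar, A.LiesOverPrime l ∧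
      ∃ φ : Γ, A.IsFrobeniusAt φ l ∧ ∃ m : ℕ,
        AlgEquiv.restrictNormalHom L g = AlgEquiv.restrictNormalHom L (φ ^ m) := by
  obtain ⟨l, hl, hlT, A, hlA, φ, hφ, hz, -⟩ := exists_isFrobeniusAt_zpowers_eq L g T
  refine ⟨l, hl, hlT, A, hlA, φ, hφ, ?_⟩
  haveI : IsGalois ℚ L := ⟨⟩
  haveI : Finite (L ≃ₐ[ℚ] L) := inferInstance
  have h1 : AlgEquiv.restrictNormalHom L g ∈ Subgroup.zpowers (AlgEquiv.restrictNormalHom L φ) := by
    rw [hz]
    exact Subgroup.mem_zpowers _
  rw [← mem_powers_iff_mem_zpowers, Submonoid.mem_powers_iff] at h1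
  obtain ⟨m, hm⟩ := h1
  exact ⟨m, by rw [map_pow, hm]⟩

/-- **From Frobenius elements to all elements.**  Let `ρ` be a representation of `Gal(ℚ̄/ℚ)` and
`χ` a character, both trivial on `Gal(ℚ̄/L)` for a finite Galois `L/ℚ`.  If for every prime
`l ∉ T` every Frobenius element `φ` at `l` satisfies `ρ(φ)² - a ρ(φ) + χ(φ) = 0` for some scalar
`a`, then `ρ(g) + χ(g) ρ(g⁻¹)` is a scalar for every `g`. -/
theorem exists_scalar_of_frobenius {k : Type*} [Field k] {U : Type*} [AddCommGroup U]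
    [Module k U] (ρ : Representation k Γ U) (χ : Γ →* kˣ)
    (hρ : ∀ γ : Γ, AlgEquiv.restrictNormalHom L γ = 1 → ρ γ = 1)
    (hχ : ∀ γ : Γ, AlgEquiv.restrictNormalHom L γ = 1 → χ γ = 1)
    (T : Finset ℕ)
    (hfrob : ∀ l : ℕ, l.Prime → l ∉ T → ∀ A : ValuationSubring Qbar, A.LiesOverPrime l →
      ∀ φ : Γ, A.IsFrobeniusAt φ l →
        ∃ a : k, ρ φ * ρ φ - a • ρ φ + ((χ φ : kˣ) : k) • (1 : Module.End k U) = 0)
    (g : Γ) :
    ∃ s : k, ρ g + ((χ g : kˣ) : k) • ρ g⁻¹ = s • (1 : Module.End k U) := by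
  obtain ⟨l, hl, hlT, A, hlA, φ, hφ, m, hm⟩ := exists_isFrobeniusAt_pow_eq L g T
  obtain ⟨a, ha⟩ := hfrob l hl hlT A hlA φ hφ
  -- `g` and `φ ^ m` have the same image under `ρ` and `χ`
  have hker : AlgEquiv.restrictNormalHom L (g * (φ ^ m)⁻¹) = 1 := by
    rw [map_mul, map_inv, hm, mul_inv_cancel]
  have hρg : ρ g = ρ φ ^ m := by
    have h1 := hρ _ hker
    rw [map_mul] at h1
    have h2 : ρ g = ρ g * (ρ (φ ^ m)⁻¹ * ρ (φ ^ m)) := by
      rw [← map_mul, inv_mul_cancel, map_one, mul_one]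
    rw [h2, ← mul_assoc, h1, one_mul, map_pow]
  have hρg' : ρ g⁻¹ = ρ φ⁻¹ ^ m := by
    have hker' : AlgEquiv.restrictNormalHom L (g⁻¹ * φ ^ m) = 1 := by
      rw [map_mul, map_inv, hm, inv_mul_cancel]
    have h1 := hρ _ hker'
    rw [map_mul] at h1
    have h2 : ρ g⁻¹ = ρ g⁻¹ * (ρ (φ ^ m) * ρ (φ ^ m)⁻¹) := by
      rw [← map_mul, mul_inv_cancel, map_one, mul_one]
    rw [h2, ← mul_assoc, h1, one_mul, ← inv_pow, map_pow]
  have hχg : χ g = χ φ ^ m := by
    have h1 := hχ _ hker
    rw [map_mul, map_inv, mul_inv_eq_one, map_pow] at h1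
    exact h1
  have hF1 : ρ φ * ρ φ⁻¹ = 1 := by rw [← map_mul, mul_inv_cancel, map_one]
  have hF2 : ρ φ⁻¹ * ρ φ = 1 := by rw [← map_mul, inv_mul_cancel, map_one]
  refine ⟨dicksonSeq a ((χ φ : kˣ) : k) m, ?_⟩
  rw [hρg, hρg', hχg, Units.val_pow_eq_pow_val]
  exact pow_add_smul_inv_pow a ((χ φ : kˣ) : k) (ρ φ) (ρ φ⁻¹) hF1 hF2 ha m

end Galois

end Fermat.Agent.N4.FrobDensity
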